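import Fermat.Agent.S29.FDDefs
import Fermat.Agent.S54.Frob

/-!
# S29, FD2-Fixed
-/

set_option autoImplicit false

namespace Fermat.Agent.S29

namespace FDFixed

open NumberField IsDedekindDomain Fermat.Agent.S54 Polynomial

local notation "Lb" => AlgebraicClosure ℚ

attribute [local instance] isAlgebraic_Lb isAlgClosure_Lb isGalois_Lb

variable {M : Type*} [Field M] [NumberField M]

theorem isIntegral_emb (ι : M →ₐ[ℚ] Lb) (x : 𝓞 M) : IsIntegral ℤ (ι x) :=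
  map_isIntegral_int ι.toRingHom (RingOfIntegers.isIntegral_coe x)

theorem emb_mem (A : ValuationSubring Lb) (ι : M →ₐ[ℚ] Lb) (x : 𝓞 M) : ι x ∈ A :=
  integralClosure_le A _ (isIntegral_emb ι x)

/-- the ring homomorphism `𝓞 M → A` induced by an embedding. -/
noncomputable def toA (A : ValuationSubring Lb) (ι : M →ₐ[ℚ] Lb) : 𝓞 M →+* A where
  toFun x := ⟨ι x, emb_mem A ι x⟩
  map_one' := Subtype.ext (by simp)
  map_mul' x y := Subtype.ext (by simp)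
  map_zero' := Subtype.ext (by simp)
  map_add' x y := Subtype.ext (by simp)

/-- the prime of `𝓞 M` cut out by `A` via `ι`. -/
noncomputable def qOf (A : ValuationSubring Lb) (ι : M →ₐ[ℚ] Lb) : Ideal (𝓞 M) :=
  (IsLocalRing.maximalIdeal A).comap (toA A ι)

instance qOf_isPrime (A : ValuationSubring Lb) (ι : M →ₐ[ℚ] Lb) : (qOf A ι).IsPrime :=
  Ideal.comap_isPrime _ _

theorem mem_qOf (A : ValuationSubring Lb) (ι : M →ₐ[ℚ] Lb) (x : 𝓞 M) :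
    x ∈ qOf A ι ↔ ι x ∈ A.nonunits := by
  rw [ValuationSubring.mem_nonunits_iff_exists_mem_maximalIdeal]
  constructor
  · intro h
    exact ⟨_, h⟩
  · rintro ⟨_, h⟩
    exact h

theorem intCast_mem_nonunits_iff (A : ValuationSubring Lb) {ℓ : ℕ} (hℓ : ℓ.Prime)
    (hA : A.LiesOverPrime ℓ) (m : ℤ) : (m : Lb) ∈ A.nonunits ↔ (ℓ : ℤ) ∣ m := by
  constructor
  · intro h
    by_contra hn
    exact intCast_not_mem_nonunits A hℓ hA m hn h
  · rintro ⟨k, rfl⟩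
    have hk : (k : Lb) ∈ A := integralClosure_le A _ (isIntegral_algebraMap (R := ℤ) (x := k))
    have := nonunits_mul_mem A (x := (ℓ : Lb)) hA hk
    simpa using this

/-- a nonzero algebraic integer divides a nonzero integer. -/
theorem exists_int_of_ne_zero (δ : Lb) (hδ : IsIntegral ℤ δ) (h0 : δ ≠ 0) :
    ∃ c : ℤ, c ≠ 0 ∧ ∀ A : ValuationSubring Lb, δ ∈ A.nonunits → (c : Lb) ∈ A.nonunits := by
  have hc0 : (minpoly ℤ δ).coeff 0 ≠ 0 := by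
    have h1 := minpoly.coeff_zero_ne_zero (A := ℚ) hδ.tower_top h0
    rw [minpoly.isIntegrallyClosed_eq_field_fractions' ℚ hδ, coeff_map] at h1
    intro h
    rw [h] at h1
    simp at h1
  refine ⟨(minpoly ℤ δ).coeff 0, hc0, fun A hA => ?_⟩
  have h1 : aeval δ (minpoly ℤ δ) = 0 := minpoly.aeval ℤ δ
  rw [← divX_mul_X_add (minpoly ℤ δ), map_add, map_mul, aeval_X, aeval_C] at h1
  have h2 : aeval δ (minpoly ℤ δ).divX ∈ A := by
    apply integralClosure_le A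
    have := Subalgebra.aeval_coe (integralClosure ℤ Lb) ⟨δ, hδ⟩ (minpoly ℤ δ).divX
    rw [this]
    exact Subtype.mem _
  have h3 : ((minpoly ℤ δ).coeff 0 : Lb) = -(δ * aeval δ (minpoly ℤ δ).divX) := by
    have : algebraMap ℤ Lb ((minpoly ℤ δ).coeff 0) = ((minpoly ℤ δ).coeff 0 : Lb) := by simp
    rw [← this]
    linear_combination h1
  rw [h3]
  exact nonunits_neg A (nonunits_mul_mem A hA h2)


theorem intCast_mem (A : ValuationSubring Lb) (k : ℤ) : (k : Lb) ∈ A :=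
  integralClosure_le A _ (by simp)

theorem exists_sep (ι ι' : M →ₐ[ℚ] Lb) (h : ι ≠ ι') : ∃ x : 𝓞 M, ι x ≠ ι' x := by
  by_contra hcon
  push Not at hcon
  apply h
  ext y
  obtain ⟨a, b, _, rfl⟩ := IsFractionRing.div_surjective (A := 𝓞 M) y
  rw [map_div₀, map_div₀, hcon a, hcon b]

theorem exists_C (M : Type*) [Field M] [NumberField M] :
    ∃ C : ℤ, C ≠ 0 ∧ ∀ ι ι' : M →ₐ[ℚ] Lb, ι ≠ ι' →
      ∃ x : 𝓞 M, ∀ A : ValuationSubring Lb, ι x - ι' x ∈ A.nonunits → (C : Lb) ∈ A.nonunits := by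
  classical
  have key : ∀ P : (M →ₐ[ℚ] Lb) × (M →ₐ[ℚ] Lb), ∃ (c : ℤ) (x : 𝓞 M), c ≠ 0 ∧ (P.1 ≠ P.2 →
      ∀ A : ValuationSubring Lb, P.1 x - P.2 x ∈ A.nonunits → (c : Lb) ∈ A.nonunits) := by
    rintro ⟨ι, ι'⟩
    by_cases h : ι = ι'
    · exact ⟨1, 0, one_ne_zero, fun h' => absurd h h'⟩
    · obtain ⟨x, hx⟩ := exists_sep ι ι' h
      obtain ⟨c, hc, hcA⟩ := exists_int_of_ne_zero (ι x - ι' x)
        ((isIntegral_emb ι x).sub (isIntegral_emb ι' x)) (sub_ne_zero.mpr hx)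
      exact ⟨c, x, hc, fun _ => hcA⟩
  choose c x hc hcx using key
  refine ⟨∏ P, c P, Finset.prod_ne_zero_iff.mpr fun P _ => hc P, fun ι ι' h => ⟨x (ι, ι'), ?_⟩⟩
  intro A hA
  obtain ⟨k, hk⟩ := Finset.dvd_prod_of_mem c (Finset.mem_univ (ι, ι'))
  rw [hk, Int.cast_mul]
  exact nonunits_mul_mem A (hcx (ι, ι') h A hA) (intCast_mem A k)


/-- modulo a prime of degree one every integer of `M` is congruent to a rational integer. -/
theorem exists_int_sub_mem {ℓ : ℕ} (hℓ : ℓ.Prime) (𝔮 : Ideal (𝓞 M)) (h𝔮 : Ideal.absNorm 𝔮 = ℓ)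
    (x : 𝓞 M) : ∃ m : ℤ, x - (m : 𝓞 M) ∈ 𝔮 := by
  have : Fact ℓ.Prime := ⟨hℓ⟩
  have hcard : Nat.card (𝓞 M ⧸ 𝔮) = ℓ := by
    rw [← h𝔮, Ideal.absNorm_apply, Submodule.cardQuot_apply]
  have h1 : (1 : 𝓞 M ⧸ 𝔮) ≠ 0 := by
    intro h
    have h2 : (Ideal.Quotient.mk 𝔮 1) = 0 := by rw [map_one]; exact h
    rw [Ideal.Quotient.eq_zero_iff_mem, ← Ideal.eq_top_iff_one] at h2
    rw [h2, Ideal.absNorm_top] at h𝔮
    exact hℓ.one_lt.ne h𝔮
  obtain ⟨m, hm⟩ := mem_zmultiples_of_prime_card hcard h1 (g' := Ideal.Quotient.mk 𝔮 x)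
  refine ⟨m, ?_⟩
  rw [← Ideal.Quotient.eq_zero_iff_mem, map_sub, ← hm]
  simp

theorem pow_sub_mem {ℓ : ℕ} (hℓ : ℓ.Prime) (𝔮 : Ideal (𝓞 M)) (h𝔮 : Ideal.absNorm 𝔮 = ℓ)
    (x : 𝓞 M) : x ^ ℓ - x ∈ 𝔮 := by
  have : Fact ℓ.Prime := ⟨hℓ⟩
  obtain ⟨m, hm⟩ := exists_int_sub_mem hℓ 𝔮 h𝔮 x
  have h1 : x ^ ℓ - (m : 𝓞 M) ^ ℓ ∈ 𝔮 := by
    obtain ⟨k, hk⟩ := sub_dvd_pow_sub_pow x (m : 𝓞 M) ℓ
    rw [hk]
    exact 𝔮.mul_mem_right _ hm
  have h2 : (m : 𝓞 M) ^ ℓ - (m : 𝓞 M) ∈ 𝔮 := by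
    have h3 : (ℓ : ℤ) ∣ m ^ ℓ - m := by
      rw [← ZMod.intCast_zmod_eq_zero_iff_dvd]
      push_cast
      rw [ZMod.pow_card, sub_self]
    obtain ⟨k, hk⟩ := h3
    have h4 : (m : 𝓞 M) ^ ℓ - (m : 𝓞 M) = (ℓ : 𝓞 M) * (k : 𝓞 M) := by
      have := congrArg (fun z : ℤ => (z : 𝓞 M)) hk
      simpa using this
    rw [h4]
    apply 𝔮.mul_mem_right
    rw [← h𝔮]
    exact Ideal.absNorm_mem 𝔮
  have : x ^ ℓ - x = (x ^ ℓ - (m : 𝓞 M) ^ ℓ) + ((m : 𝓞 M) ^ ℓ - (m : 𝓞 M)) - (x - (m : 𝓞 M)) := by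
    ring
  rw [this]
  exact 𝔮.sub_mem (𝔮.add_mem h1 h2) hm

/-- a Frobenius lift acts as `a ↦ a ^ ℓ` modulo the maximal ideal. -/
theorem frob_sub_pow_mem (A : ValuationSubring Lb) {ℓ : ℕ} (σ : GQ) (hσ : A.IsFrobeniusAt σ ℓ)
    (a : Lb) (ha : a ∈ A) : σ a - a ^ ℓ ∈ A.nonunits := by
  have h1 := hσ.smul_residue_eq (IsLocalRing.residue A ⟨a, ha⟩)
  rw [← IsLocalRing.ResidueField.residue_smul, ← map_pow, ← sub_eq_zero, ← map_sub,
    IsLocalRing.residue_eq_zero_iff] at h1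
  rw [ValuationSubring.mem_nonunits_iff_exists_mem_maximalIdeal]
  exact ⟨_, h1⟩


theorem charP_residue (A : ValuationSubring Lb) {ℓ : ℕ} (hℓ : ℓ.Prime) (hA : A.LiesOverPrime ℓ) :
    CharP (IsLocalRing.ResidueField A) ℓ := by
  rw [CharP.charP_iff_prime_eq_zero hℓ]
  have h1 : IsLocalRing.residue A (ℓ : A) = 0 := by
    rw [IsLocalRing.residue_eq_zero_iff]
    have hA' : (ℓ : Lb) ∈ A.nonunits := hA
    rw [ValuationSubring.mem_nonunits_iff_exists_mem_maximalIdeal] at hA'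
    obtain ⟨h, hm⟩ := hA'
    convert hm using 1
    exact Subtype.ext (by simp)
  simpa using h1

theorem exists_int_of_fixed (A : ValuationSubring Lb) {ℓ : ℕ} (hℓ : ℓ.Prime)
    (hA : A.LiesOverPrime ℓ) (σ : GQ) (hσ : A.IsFrobeniusAt σ ℓ) (a : Lb) (ha : a ∈ A)
    (hfix : σ a = a) : ∃ m : ℤ, a - (m : Lb) ∈ A.nonunits := by
  have : Fact ℓ.Prime := ⟨hℓ⟩
  have := charP_residue A hℓ hA
  have h1 := hσ.smul_residue_eq (IsLocalRing.residue A ⟨a, ha⟩)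
  rw [← IsLocalRing.ResidueField.residue_smul] at h1
  have h2 : ((⟨σ, hσ.mem_decompositionSubgroup⟩ : A.decompositionSubgroup ℚ) • (⟨a, ha⟩ : A)) =
      ⟨a, ha⟩ := Subtype.ext hfix
  rw [h2] at h1
  have h3 := (Subfield.mem_bot_iff_pow_eq_self (IsLocalRing.ResidueField A) ℓ).mpr h1.symm
  obtain ⟨m, hc⟩ := (mem_bot_iff_intCast ℓ (IsLocalRing.ResidueField A)).mp h3
  refine ⟨m, ?_⟩
  have h4 : IsLocalRing.residue A (⟨a, ha⟩ - (m : A)) = 0 := by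
    rw [map_sub, map_intCast, hc, sub_self]
  rw [IsLocalRing.residue_eq_zero_iff] at h4
  rw [ValuationSubring.mem_nonunits_iff_exists_mem_maximalIdeal]
  refine ⟨?_, ?_⟩
  · exact A.sub_mem ha (intCast_mem A m)
  · convert h4 using 1
    exact Subtype.ext (by simp)

theorem absNorm_qOf (A : ValuationSubring Lb) {ℓ : ℕ} (hℓ : ℓ.Prime)
    (hA : A.LiesOverPrime ℓ) (σ : GQ) (hσ : A.IsFrobeniusAt σ ℓ) (ι : M →ₐ[ℚ] Lb)
    (hfix : (σ : Lb →ₐ[ℚ] Lb).comp ι = ι) : Ideal.absNorm (qOf A ι) = ℓ := by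
  let f : ℤ →+ (𝓞 M ⧸ qOf A ι) := (Int.castAddHom (𝓞 M ⧸ qOf A ι))
  have hsurj : Function.Surjective f := by
    intro y
    obtain ⟨x, rfl⟩ := Ideal.Quotient.mk_surjective y
    have hx : σ (ι x) = ι x := DFunLike.congr_fun hfix (x : M)
    obtain ⟨m, hm⟩ := exists_int_of_fixed A hℓ hA σ hσ (ι x) (emb_mem A ι x) hx
    refine ⟨m, ?_⟩
    have h1 : x - (m : 𝓞 M) ∈ qOf A ι := by
      rw [mem_qOf]
      simpa using hm
    rw [← Ideal.Quotient.eq_zero_iff_mem, map_sub, sub_eq_zero] at h1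
    rw [h1]
    simp [f]
  have hker : f.ker = AddSubgroup.zmultiples (ℓ : ℤ) := by
    ext m
    rw [AddMonoidHom.mem_ker, Int.mem_zmultiples_iff, ← intCast_mem_nonunits_iff A hℓ hA]
    have h1 : f m = Ideal.Quotient.mk (qOf A ι) (m : 𝓞 M) := by simp [f]
    rw [h1, Ideal.Quotient.eq_zero_iff_mem, mem_qOf]
    simp
  have h1 := AddSubgroup.index_ker f
  rw [hker, Int.index_zmultiples, AddMonoidHom.range_eq_top.mpr hsurj, AddSubgroup.card_top] at h1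
  rw [Ideal.absNorm_apply, Submodule.cardQuot_apply]
  simpa using h1.symm


theorem exists_emb_mem_nonunits (A : ValuationSubring Lb) (y : 𝓞 M)
    (hy : ((Algebra.norm ℤ y : ℤ) : Lb) ∈ A.nonunits) : ∃ ι : M →ₐ[ℚ] Lb, ι y ∈ A.nonunits := by
  classical
  by_contra hcon
  push Not at hcon
  have h1 : ∀ ι : M →ₐ[ℚ] Lb, A.valuation (ι y) = 1 := by
    intro ι
    have h2 := hcon ι
    rw [ValuationSubring.mem_nonunits_iff, not_lt] at h2
    exact le_antisymm ((ValuationSubring.valuation_le_one_iff A _).mpr (emb_mem A ι y)) h2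
  have h3 := Algebra.norm_eq_prod_embeddings ℚ Lb (y : M)
  rw [← Algebra.coe_norm_int] at h3
  rw [ValuationSubring.mem_nonunits_iff] at hy
  have h4 : ((Algebra.norm ℤ y : ℤ) : Lb) = ∏ ι : M →ₐ[ℚ] Lb, ι y := by
    rw [← h3]; simp
  rw [h4, map_prod, Finset.prod_congr rfl (fun ι _ => h1 ι), Finset.prod_const_one] at hy
  exact lt_irrefl _ hy

theorem exists_qOf_eq (A : ValuationSubring Lb) {ℓ : ℕ} (hℓ : ℓ.Prime)
    (hA : A.LiesOverPrime ℓ) (v : HeightOneSpectrum (𝓞 M)) (hv : Ideal.absNorm v.asIdeal = ℓ) :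
    ∃ ι : M →ₐ[ℚ] Lb, qOf A ι = v.asIdeal := by
  have hmem : (ℓ : 𝓞 M) ∈ v.asIdeal := by
    rw [← hv]; exact Ideal.absNorm_mem _
  have hne : (ℓ : 𝓞 M) ≠ 0 := by exact_mod_cast hℓ.ne_zero
  obtain ⟨y, hy⟩ := IsDedekindDomain.exists_eq_span_pair hmem hne
  have hyv : y ∈ v.asIdeal := by
    rw [hy]; exact Ideal.subset_span (by simp)
  have hdvd : (ℓ : ℤ) ∣ Algebra.norm ℤ y := by
    have h1 := Ideal.absNorm_dvd_absNorm_of_le
      ((Ideal.span_singleton_le_iff_mem (I := v.asIdeal)).mpr hyv)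
    rw [hv, Ideal.absNorm_span_singleton] at h1
    exact Int.natCast_dvd.mpr h1
  obtain ⟨ι, hι⟩ := exists_emb_mem_nonunits A y ((intCast_mem_nonunits_iff A hℓ hA _).mpr hdvd)
  refine ⟨ι, ?_⟩
  have hle : v.asIdeal ≤ qOf A ι := by
    rw [hy, Ideal.span_le]
    intro z hz
    rcases hz with rfl | rfl
    · rw [SetLike.mem_coe, mem_qOf]
      have hA' : (ℓ : Lb) ∈ A.nonunits := hA
      simpa using hA'
    · rw [SetLike.mem_coe, mem_qOf]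
      exact hι
  exact (v.isMaximal.eq_of_le (qOf_isPrime A ι).ne_top hle).symm

end FDFixed

open NumberField IsDedekindDomain

open FDFixed Fermat.Agent.S54 in
/-- FD2: for almost all `ℓ`, the number of primes of norm `ℓ` of `M` is the number of embeddings
`M → ℚ̄` fixed by a Frobenius lift at `ℓ`. -/
theorem nDeg_eq_nFix (M : Type*) [Field M] [NumberField M] :
    ∃ B : Finset ℕ, ∀ ℓ : ℕ, ℓ.Prime → ℓ ∉ B →
      ∀ A : ValuationSubring (AlgebraicClosure ℚ), A.LiesOverPrime ℓ →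
        ∀ σ : GQ, A.IsFrobeniusAt σ ℓ → nDeg M ℓ = nFix M σ := by
  obtain ⟨C, hC0, hC⟩ := exists_C M
  refine ⟨Finset.range (C.natAbs + 1), fun ℓ hℓ hB A hA σ hσ => ?_⟩
  have hCn : (C : AlgebraicClosure ℚ) ∉ A.nonunits := by
    rw [intCast_mem_nonunits_iff A hℓ hA]
    intro hd
    apply hB
    rw [Finset.mem_range]
    have h1 := Int.natAbs_dvd_natAbs.mpr hd
    have h2 := Nat.le_of_dvd (Int.natAbs_pos.mpr hC0) (by simpa using h1)
    omega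
  have NC : ∀ ι ι' : M →ₐ[ℚ] AlgebraicClosure ℚ,
      (∀ x : 𝓞 M, ι x - ι' x ∈ A.nonunits) → ι = ι' := by
    intro ι ι' h
    by_contra hne
    obtain ⟨x, hx⟩ := hC ι ι' hne
    exact hCn (hx A (h x))
  unfold nDeg nFix
  symm
  let Φ : {ι : M →ₐ[ℚ] AlgebraicClosure ℚ //
        (σ : AlgebraicClosure ℚ →ₐ[ℚ] AlgebraicClosure ℚ).comp ι = ι} →
      {v : HeightOneSpectrum (𝓞 M) // Ideal.absNorm v.asIdeal = ℓ} := fun ι =>
    ⟨⟨qOf A ι.1, qOf_isPrime A ι.1, by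
      intro h
      have := absNorm_qOf A hℓ hA σ hσ ι.1 ι.2
      rw [h, Ideal.absNorm_bot] at this
      exact hℓ.ne_zero this.symm⟩, absNorm_qOf A hℓ hA σ hσ ι.1 ι.2⟩
  refine Nat.card_congr (Equiv.ofBijective Φ ⟨?_, ?_⟩)
  · intro ι ι' h
    have hq : qOf A ι.1 = qOf A ι'.1 := congrArg (fun v => v.1.asIdeal) h
    apply Subtype.ext
    apply NC
    intro x
    obtain ⟨m, hm⟩ := exists_int_sub_mem hℓ (qOf A ι.1) (absNorm_qOf A hℓ hA σ hσ ι.1 ι.2) x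
    have h1 := (mem_qOf A ι.1 _).mp hm
    have h2 := (mem_qOf A ι'.1 _).mp (hq ▸ hm)
    have h3 : ι.1 x - ι'.1 x = ι.1 ((x - (m : 𝓞 M) : 𝓞 M) : M) + -(ι'.1 ((x - (m : 𝓞 M) : 𝓞 M) : M)) := by
      simp
    rw [h3]
    exact nonunits_add A h1 (nonunits_neg A h2)
  · rintro ⟨v, hv⟩
    obtain ⟨ι, hι⟩ := exists_qOf_eq A hℓ hA v hv
    have hfix : (σ : AlgebraicClosure ℚ →ₐ[ℚ] AlgebraicClosure ℚ).comp ι = ι := by
      apply NC
      intro x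
      have h1 := frob_sub_pow_mem A σ hσ (ι x) (emb_mem A ι x)
      have h2 : x ^ ℓ - x ∈ qOf A ι := by
        rw [hι]; exact pow_sub_mem hℓ v.asIdeal hv x
      rw [mem_qOf] at h2
      have h3 : ((σ : AlgebraicClosure ℚ →ₐ[ℚ] AlgebraicClosure ℚ).comp ι) x - ι x =
          (σ (ι x) - ι x ^ ℓ) + ι ((x ^ ℓ - x : 𝓞 M) : M) := by
        simp
      rw [h3]
      exact nonunits_add A h1 h2
    refine ⟨⟨ι, hfix⟩, ?_⟩
    apply Subtype.ext
    apply HeightOneSpectrum.ext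
    exact hι

end Fermat.Agent.S29
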