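import Mathlib

/-!
# S29, FD5a: the analytic contradiction
-/

set_option autoImplicit false

open Filter Topology

namespace Fermat.Agent.S29

theorem eventually_lt_log (C : ℝ) : ∀ᶠ s in 𝓝[>] (1 : ℝ), C < Real.log (1 / (s - 1)) := by
  have h1 : Set.Ioo (1 : ℝ) (1 + Real.exp (-C)) ∈ 𝓝[>] (1 : ℝ) :=
    Ioo_mem_nhdsGT (by linarith [Real.exp_pos (-C)])
  filter_upwards [h1] with s hs
  have h2 : 0 < s - 1 := by linarith [hs.1]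
  have h3 : s - 1 < Real.exp (-C) := by linarith [hs.2]
  rw [one_div, Real.log_inv]
  have h4 : Real.log (s - 1) < -C := by
    rw [Real.log_lt_iff_lt_exp h2]
    exact h3
  linarith

theorem fd_analytic {ι : Type*} (I : Finset ι) (c : ι → ℤ) (hc : 0 < ∑ d ∈ I, c d)
    (P : ι → ℝ → ℝ) (nd : ι → ℕ → ℕ)
    (hasymp : ∀ d ∈ I, ∃ C : ℝ, ∀ᶠ s in 𝓝[>] (1 : ℝ), |P d s - Real.log (1 / (s - 1))| ≤ C)
    (hsum : ∀ d ∈ I, ∀ s : ℝ, 1 < s →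
      HasSum (fun ℓ : Nat.Primes => (nd d ℓ : ℝ) * ((ℓ : ℕ) : ℝ) ^ (-s)) (P d s))
    (B : Finset ℕ) : ∃ ℓ : ℕ, ℓ.Prime ∧ ℓ ∉ B ∧ ∑ d ∈ I, c d * (nd d ℓ : ℤ) ≠ 0 := by
  classical
  by_contra hcon
  push Not at hcon
  -- the finite set of exceptional primes
  let B' : Finset Nat.Primes := B.subtype Nat.Prime
  have hB' : ∀ ℓ : Nat.Primes, ℓ ∉ B' → ∑ d ∈ I, c d * (nd d ℓ : ℤ) = 0 := by
    intro ℓ hℓ
    apply hcon ℓ ℓ.2
    intro h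
    exact hℓ (Finset.mem_subtype.2 h)
  let F : Nat.Primes → ℝ := fun ℓ => ((∑ d ∈ I, c d * (nd d ℓ : ℤ) : ℤ) : ℝ)
  have hF : ∀ s : ℝ, 1 < s → ∑ d ∈ I, (c d : ℝ) * P d s = ∑ ℓ ∈ B', F ℓ * ((ℓ : ℕ) : ℝ) ^ (-s) := by
    intro s hs
    have h1 : HasSum (fun ℓ : Nat.Primes => ∑ d ∈ I, (c d : ℝ) * ((nd d ℓ : ℝ) * ((ℓ : ℕ) : ℝ) ^ (-s)))
        (∑ d ∈ I, (c d : ℝ) * P d s) :=
      hasSum_sum fun d hd => (hsum d hd s hs).mul_left _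
    have h2 : (fun ℓ : Nat.Primes => ∑ d ∈ I, (c d : ℝ) * ((nd d ℓ : ℝ) * ((ℓ : ℕ) : ℝ) ^ (-s)))
        = fun ℓ => F ℓ * ((ℓ : ℕ) : ℝ) ^ (-s) := by
      funext ℓ
      simp only [F]
      push_cast
      rw [Finset.sum_mul]
      exact Finset.sum_congr rfl fun d _ => by ring
    rw [h2] at h1
    have h3 : HasSum (fun ℓ : Nat.Primes => F ℓ * ((ℓ : ℕ) : ℝ) ^ (-s))
        (∑ ℓ ∈ B', F ℓ * ((ℓ : ℕ) : ℝ) ^ (-s)) := by
      apply hasSum_sum_of_ne_finset_zero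
      intro ℓ hℓ
      simp only [F]
      rw [hB' ℓ hℓ]
      simp
    exact h1.unique h3
  have hbound : ∀ s : ℝ, 1 < s → |∑ d ∈ I, (c d : ℝ) * P d s| ≤ ∑ ℓ ∈ B', |F ℓ| := by
    intro s hs
    rw [hF s hs]
    refine (Finset.abs_sum_le_sum_abs _ _).trans (Finset.sum_le_sum fun ℓ _ => ?_)
    rw [abs_mul]
    have h1 : |((ℓ : ℕ) : ℝ) ^ (-s)| ≤ 1 := by
      rw [abs_of_nonneg (Real.rpow_nonneg (Nat.cast_nonneg _) _)]
      apply Real.rpow_le_one_of_one_le_of_nonpos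
      · exact_mod_cast ℓ.2.one_le
      · linarith
    calc |F ℓ| * |((ℓ : ℕ) : ℝ) ^ (-s)| ≤ |F ℓ| * 1 := by gcongr
      _ = |F ℓ| := mul_one _
  choose! C hC using hasymp
  have hev : ∀ᶠ s in 𝓝[>] (1 : ℝ), ∀ d ∈ I, |P d s - Real.log (1 / (s - 1))| ≤ C d := by
    rw [Filter.eventually_all_finset]
    exact hC
  set c₀ : ℝ := ((∑ d ∈ I, c d : ℤ) : ℝ) with hc₀
  have hc₀pos : 0 < c₀ := by
    rw [hc₀]
    exact Int.cast_pos.2 hc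
  set C₁ : ℝ := ∑ ℓ ∈ B', |F ℓ| + ∑ d ∈ I, |(c d : ℝ)| * C d with hC₁
  have h1 : ∀ᶠ s in 𝓝[>] (1 : ℝ), (1 : ℝ) < s := eventually_mem_nhdsWithin
  obtain ⟨s, hs1, hs2, hs3⟩ := (h1.and (hev.and (eventually_lt_log (C₁ / c₀)))).exists
  have h2 : c₀ * Real.log (1 / (s - 1))
      = ∑ d ∈ I, (c d : ℝ) * P d s - ∑ d ∈ I, (c d : ℝ) * (P d s - Real.log (1 / (s - 1))) := by
    rw [← Finset.sum_sub_distrib, hc₀]
    push_cast
    rw [Finset.sum_mul]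
    exact Finset.sum_congr rfl fun d _ => by ring
  have h3 : |∑ d ∈ I, (c d : ℝ) * (P d s - Real.log (1 / (s - 1)))| ≤ ∑ d ∈ I, |(c d : ℝ)| * C d := by
    refine (Finset.abs_sum_le_sum_abs _ _).trans (Finset.sum_le_sum fun d hd => ?_)
    rw [abs_mul]
    exact mul_le_mul_of_nonneg_left (hs2 d hd) (abs_nonneg _)
  have h4 : c₀ * Real.log (1 / (s - 1)) ≤ C₁ := by
    rw [h2, hC₁]
    have := hbound s hs1
    have h5 := abs_le.1 this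
    have h6 := abs_le.1 h3
    linarith [h5.2, h6.1]
  rw [div_lt_iff₀ hc₀pos] at hs3
  linarith

end Fermat.Agent.S29
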