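import Fermat.Agent.S29.FDDefs

/-!
# S29, FD4-Bridge
-/

set_option autoImplicit false

namespace Fermat.Agent.S29

/-- FD4: embeddings of a fixed field, fixed by `σ`. -/
theorem card_mul_nFix (L : IntermediateField ℚ (AlgebraicClosure ℚ)) [FiniteDimensional ℚ L]
    [Normal ℚ L] (H : Subgroup (L ≃ₐ[ℚ] L)) (σ : GQ) :
    Nat.card H * nFix (IntermediateField.fixedField H) σ =
      Nat.card {τ : L ≃ₐ[ℚ] L //
        τ⁻¹ * AlgEquiv.restrictNormalHom (F := ℚ) (K₁ := AlgebraicClosure ℚ) L σ * τ ∈ H} := by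
  classical
  obtain ⟨M, hM⟩ : ∃ M : IntermediateField ℚ L, M = IntermediateField.fixedField H := ⟨_, rfl⟩
  obtain ⟨s, hs⟩ : ∃ s : L ≃ₐ[ℚ] L,
    s = AlgEquiv.restrictNormalHom (F := ℚ) (K₁ := AlgebraicClosure ℚ) L σ := ⟨_, rfl⟩
  rw [← hM, ← hs]
  have hH : M.fixingSubgroup = H := by rw [hM]; exact IntermediateField.fixingSubgroup_fixedField H
  have hsσ : ∀ x : L, ((s x : L) : AlgebraicClosure ℚ) = σ (x : AlgebraicClosure ℚ) := by
    intro x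
    rw [hs]
    exact AlgEquiv.restrictNormal_commutes σ L x
  let Φ : (L ≃ₐ[ℚ] L) → (M →ₐ[ℚ] AlgebraicClosure ℚ) :=
    fun τ => (L.val.comp τ.toAlgHom).comp M.val
  have hΦ_apply : ∀ (τ : L ≃ₐ[ℚ] L) (x : M),
      Φ τ x = ((τ (x : L) : L) : AlgebraicClosure ℚ) := fun _ _ => rfl
  have hΦ_eq : ∀ τ τ' : L ≃ₐ[ℚ] L, Φ τ = Φ τ' ↔ τ'⁻¹ * τ ∈ H := by
    intro τ τ'
    rw [← hH, IntermediateField.mem_fixingSubgroup_iff]
    constructor
    · intro h x hx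
      have h1 := DFunLike.congr_fun h (⟨x, hx⟩ : M)
      rw [hΦ_apply, hΦ_apply] at h1
      have h2 : τ x = τ' x := Subtype.ext h1
      rw [AlgEquiv.mul_apply, h2]
      exact τ'.symm_apply_apply x
    · intro h
      refine AlgHom.ext fun x => ?_
      rw [hΦ_apply, hΦ_apply]
      have h1 := h (x : L) x.2
      rw [AlgEquiv.mul_apply] at h1
      have h2 : τ (x : L) = τ' (x : L) := by
        have := congrArg τ' h1
        rwa [show τ' (τ'⁻¹ (τ (x : L))) = τ (x : L) from τ'.apply_symm_apply _] at this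
      rw [h2]
  have hΦ_surj : Function.Surjective Φ := by
    intro ι
    obtain ⟨φ, hφ⟩ := IntermediateField.exists_algHom_of_splits (F := ℚ) (E := L)
      (K := AlgebraicClosure ℚ) (L := M)
      (fun x => ⟨(Algebra.IsIntegral.isIntegral x), IsAlgClosed.splits _⟩) ι
    refine ⟨Normal.algHomEquivAut ℚ (AlgebraicClosure ℚ) L φ, ?_⟩
    have h1 := (Normal.algHomEquivAut ℚ (AlgebraicClosure ℚ) L).symm_apply_apply φ
    rw [← hφ]
    conv_rhs => rw [← h1]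
    rfl
  have hσΦ : ∀ τ : L ≃ₐ[ℚ] L,
      (σ : AlgebraicClosure ℚ →ₐ[ℚ] AlgebraicClosure ℚ).comp (Φ τ) = Φ (s * τ) := by
    intro τ
    refine AlgHom.ext fun x => ?_
    rw [hΦ_apply, AlgEquiv.mul_apply, hsσ]
    rfl
  let sec : (M →ₐ[ℚ] AlgebraicClosure ℚ) → (L ≃ₐ[ℚ] L) := Function.surjInv hΦ_surj
  have hsec : ∀ ι, Φ (sec ι) = ι := Function.surjInv_eq hΦ_surj
  have hmemT : ∀ τ : L ≃ₐ[ℚ] L, τ⁻¹ * s * τ ∈ H ↔
      (σ : AlgebraicClosure ℚ →ₐ[ℚ] AlgebraicClosure ℚ).comp (Φ τ) = Φ τ := by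
    intro τ
    rw [hσΦ, hΦ_eq, mul_assoc]
  have hΦmul : ∀ (τ : L ≃ₐ[ℚ] L) (h : H), Φ (τ * h) = Φ τ := by
    intro τ h
    rw [hΦ_eq]
    simp
  let f : H × {ι : M →ₐ[ℚ] AlgebraicClosure ℚ //
      (σ : AlgebraicClosure ℚ →ₐ[ℚ] AlgebraicClosure ℚ).comp ι = ι} →
      {τ : L ≃ₐ[ℚ] L // τ⁻¹ * s * τ ∈ H} :=
    fun x => ⟨sec x.2.1 * x.1, by
      rw [hmemT, hΦmul, hsec]
      exact x.2.2⟩
  have hf : Function.Bijective f := by
    constructor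
    · rintro ⟨h, ι⟩ ⟨h', ι'⟩ hEq
      have h1 : sec ι.1 * h = sec ι'.1 * h' := congrArg Subtype.val hEq
      have h2 : ι.1 = ι'.1 := by
        have := congrArg Φ h1
        rwa [hΦmul, hΦmul, hsec, hsec] at this
      have h3 : ι = ι' := Subtype.ext h2
      subst h3
      have h4 : (h : L ≃ₐ[ℚ] L) = h' := mul_left_cancel h1
      rw [Subtype.ext h4]
    · rintro ⟨τ, hτ⟩
      have h1 : (sec (Φ τ))⁻¹ * τ ∈ H := by
        rw [← hΦ_eq, hsec]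
      refine ⟨(⟨_, h1⟩, ⟨Φ τ, (hmemT τ).1 hτ⟩), ?_⟩
      apply Subtype.ext
      show sec (Φ τ) * ((sec (Φ τ))⁻¹ * τ) = τ
      rw [mul_inv_cancel_left]
  rw [nFix, ← Nat.card_prod]
  exact Nat.card_congr (Equiv.ofBijective f hf)

end Fermat.Agent.S29
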