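import Fermat.Agent.S29.FDFixed

/-!
# S29, FD: conjugates of Frobenius lifts
-/

set_option autoImplicit false

open scoped Pointwise

namespace Fermat.Agent.S29

/-- a criterion for being a Frobenius lift. -/
theorem isFrobeniusAt_of_forall (A : ValuationSubring (AlgebraicClosure ℚ)) {ℓ : ℕ} (σ : GQ)
    (hdec : σ • A = A) (h : ∀ a ∈ A, σ a - a ^ ℓ ∈ A.nonunits) : A.IsFrobeniusAt σ ℓ := by
  have hdec' : σ ∈ A.decompositionSubgroup ℚ := MulAction.mem_stabilizer_iff.2 hdec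
  refine ⟨hdec', fun x => ?_⟩
  obtain ⟨a, rfl⟩ := IsLocalRing.residue_surjective x
  rw [← IsLocalRing.ResidueField.residue_smul, ← map_pow, ← sub_eq_zero, ← map_sub,
    IsLocalRing.residue_eq_zero_iff]
  have h1 := h a.1 a.2
  rw [ValuationSubring.mem_nonunits_iff_exists_mem_maximalIdeal] at h1
  obtain ⟨h2, h3⟩ := h1
  convert h3 using 1
  exact Subtype.ext rfl

theorem mem_smul_iff (A : ValuationSubring (AlgebraicClosure ℚ)) (τ : GQ)
    (x : AlgebraicClosure ℚ) : x ∈ τ • A ↔ τ⁻¹ x ∈ A := by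
  rw [ValuationSubring.mem_pointwise_smul_iff_inv_smul_mem]
  rfl

theorem mem_nonunits_iff' (A : ValuationSubring (AlgebraicClosure ℚ)) (x : AlgebraicClosure ℚ) :
    x ∈ A.nonunits ↔ x = 0 ∨ x⁻¹ ∉ A := by
  rw [ValuationSubring.mem_nonunits_iff]
  by_cases hx : x = 0
  · simp [hx]
  · simp only [hx, false_or]
    rw [← ValuationSubring.valuation_le_one_iff, map_inv₀, not_le]
    exact (one_lt_inv₀ (zero_lt_iff.2 ((map_ne_zero _).2 hx))).symm

theorem mem_nonunits_smul_iff (A : ValuationSubring (AlgebraicClosure ℚ)) (τ : GQ)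
    (x : AlgebraicClosure ℚ) : x ∈ (τ • A).nonunits ↔ τ⁻¹ x ∈ A.nonunits := by
  rw [mem_nonunits_iff', mem_nonunits_iff', mem_smul_iff, map_inv₀]
  simp

/-- conjugation of Frobenius lifts. -/
theorem IsFrobeniusAt_conj (A : ValuationSubring (AlgebraicClosure ℚ)) {ℓ : ℕ} (σ τ : GQ)
    (hσ : A.IsFrobeniusAt σ ℓ) : (τ • A).IsFrobeniusAt (τ * σ * τ⁻¹) ℓ := by
  apply isFrobeniusAt_of_forall
  · have h1 : σ • A = A := MulAction.mem_stabilizer_iff.1 hσ.mem_decompositionSubgroup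
    rw [mul_smul, mul_smul, inv_smul_smul, h1]
  · intro a ha
    rw [mem_smul_iff] at ha
    rw [mem_nonunits_smul_iff]
    have h1 := FDFixed.frob_sub_pow_mem A σ hσ _ ha
    have h2 : τ⁻¹ ((τ * σ * τ⁻¹) a - a ^ ℓ) = σ (τ⁻¹ a) - (τ⁻¹ a) ^ ℓ := by
      rw [map_sub, map_pow]
      congr 1
      show τ⁻¹ (τ (σ (τ⁻¹ a))) = _
      exact τ.symm_apply_apply _
    rw [h2]
    exact h1

theorem liesOverPrime_smul (A : ValuationSubring (AlgebraicClosure ℚ)) {ℓ : ℕ} (τ : GQ)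
    (hA : A.LiesOverPrime ℓ) : (τ • A).LiesOverPrime ℓ := by
  show (ℓ : AlgebraicClosure ℚ) ∈ (τ • A).nonunits
  rw [mem_nonunits_smul_iff, map_natCast]
  exact hA

end Fermat.Agent.S29
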