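import Mathlib

/-!
# S29, FD3-Moebius
-/

set_option autoImplicit false

namespace Fermat.Agent.S29

open ArithmeticFunction

namespace FDMoebius

theorem sum_moebius_divisors (m : ℕ) :
    ∑ d ∈ m.divisors, (moebius d : ℤ) = if m = 1 then 1 else 0 := by
  have h := congrArg (fun f : ArithmeticFunction ℤ => f m) moebius_mul_coe_zeta
  simp only [coe_mul_zeta_apply, one_apply] at h
  exact h

theorem pow_mem_zpowers_pow_iff {G : Type*} [Group G] (g : G) {d : ℕ} (hd : d ∣ orderOf g)
    (k : ℕ) : g ^ k ∈ Subgroup.zpowers (g ^ d) ↔ d ∣ k := by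
  constructor
  · rintro ⟨z, hz⟩
    have hz' : (g ^ d) ^ z = g ^ k := hz
    have h1 : g ^ ((k : ℤ) - d * z) = 1 := by
      rw [zpow_sub, zpow_natCast, zpow_mul, zpow_natCast, hz', mul_inv_cancel]
    have h2 : (orderOf g : ℤ) ∣ (k : ℤ) - d * z := orderOf_dvd_iff_zpow_eq_one.2 h1
    have h3 : (d : ℤ) ∣ (k : ℤ) - d * z := (Int.natCast_dvd_natCast.2 hd).trans h2
    have h4 : (d : ℤ) ∣ (k : ℤ) := by
      have := dvd_add h3 (Dvd.intro z rfl : (d : ℤ) ∣ d * z)
      simpa using this
    exact Int.natCast_dvd_natCast.1 h4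
  · rintro ⟨j, rfl⟩
    exact ⟨j, by simp [pow_mul]⟩

theorem zpowers_pow_eq_iff {G : Type*} [Group G] [Finite G] (g : G) (k : ℕ) :
    Subgroup.zpowers (g ^ k) = Subgroup.zpowers g ↔ Nat.gcd (orderOf g) k = 1 := by
  have hn : 0 < orderOf g := orderOf_pos g
  constructor
  · intro h
    have h1 : orderOf (g ^ k) = orderOf g := by
      rw [← Nat.card_zpowers, ← Nat.card_zpowers, h]
    rw [orderOf_pow] at h1
    have h2 : Nat.gcd (orderOf g) k ∣ orderOf g := Nat.gcd_dvd_left _ _
    have h3 := Nat.div_mul_cancel h2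
    rw [h1] at h3
    have : orderOf g * Nat.gcd (orderOf g) k = orderOf g * 1 := by rw [h3, mul_one]
    exact Nat.eq_of_mul_eq_mul_left hn this
  · intro h
    apply Subgroup.eq_of_le_of_card_ge
    · rw [Subgroup.zpowers_le]
      exact Subgroup.npow_mem_zpowers g k
    · rw [Nat.card_zpowers, Nat.card_zpowers, orderOf_pow, h, Nat.div_one]

open scoped Classical in
/-- the pointwise identity. -/
theorem key {G : Type*} [Group G] [Finite G] (g y : G) :
    ∑ d ∈ (orderOf g).divisors, (moebius d : ℤ) *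
        (if y ∈ Subgroup.zpowers (g ^ d) then 1 else 0) =
      if Subgroup.zpowers y = Subgroup.zpowers g then 1 else 0 := by
  classical
  have hn : 0 < orderOf g := orderOf_pos g
  by_cases hy : y ∈ Subgroup.zpowers g
  · obtain ⟨k, rfl⟩ : ∃ k : ℕ, y = g ^ k := by
      obtain ⟨k, -, hk⟩ := Finset.mem_image.1 (mem_zpowers_iff_mem_range_orderOf.1 hy)
      exact ⟨k, hk.symm⟩
    have h1 : ∑ d ∈ (orderOf g).divisors, (moebius d : ℤ) *
        (if g ^ k ∈ Subgroup.zpowers (g ^ d) then 1 else 0)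
        = ∑ d ∈ (orderOf g).divisors, if d ∣ k then (moebius d : ℤ) else 0 := by
      refine Finset.sum_congr rfl fun d hd => ?_
      have hiff := pow_mem_zpowers_pow_iff g (Nat.dvd_of_mem_divisors hd) k
      by_cases hdk : d ∣ k
      · rw [if_pos (hiff.2 hdk), if_pos hdk, mul_one]
      · rw [if_neg (fun h => hdk (hiff.1 h)), if_neg hdk, mul_zero]
    rw [h1, ← Finset.sum_filter]
    have h2 : (orderOf g).divisors.filter (· ∣ k) = (Nat.gcd (orderOf g) k).divisors := by
      ext d
      simp only [Finset.mem_filter, Nat.mem_divisors, Nat.dvd_gcd_iff]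
      constructor
      · rintro ⟨⟨h3, -⟩, h4⟩
        exact ⟨⟨h3, h4⟩, (Nat.gcd_pos_of_pos_left _ hn).ne'⟩
      · rintro ⟨⟨h3, h4⟩, -⟩
        exact ⟨⟨h3, hn.ne'⟩, h4⟩
    rw [h2, sum_moebius_divisors]
    simp only [zpowers_pow_eq_iff]
  · have h1 : ∀ d ∈ (orderOf g).divisors, (moebius d : ℤ) *
        (if y ∈ Subgroup.zpowers (g ^ d) then 1 else 0) = 0 := by
      intro d _
      rw [if_neg, mul_zero]
      intro h
      apply hy
      have : Subgroup.zpowers (g ^ d) ≤ Subgroup.zpowers g := by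
        rw [Subgroup.zpowers_le]
        exact Subgroup.npow_mem_zpowers g d
      exact this h
    rw [Finset.sum_eq_zero h1, if_neg]
    intro h
    apply hy
    rw [← h]
    exact Subgroup.mem_zpowers y

theorem card_subtype_eq_sum {G : Type*} [Fintype G] (P : G → Prop) [DecidablePred P] :
    (Nat.card {τ : G // P τ} : ℤ) = ∑ τ : G, if P τ then 1 else 0 := by
  rw [Nat.card_eq_fintype_card, Fintype.card_subtype, Finset.card_filter]
  push_cast
  rfl

end FDMoebius

open FDMoebius in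
/-- FD3a -/
theorem moebius_count {G : Type*} [Group G] [Finite G] (g s : G) :
    ∑ d ∈ (orderOf g).divisors, (moebius d : ℤ) *
        (Nat.card {τ : G // τ⁻¹ * s * τ ∈ Subgroup.zpowers (g ^ d)} : ℤ) =
      (Nat.card {τ : G // Subgroup.zpowers (τ⁻¹ * s * τ) = Subgroup.zpowers g} : ℤ) := by
  classical
  have := Fintype.ofFinite G
  simp only [card_subtype_eq_sum, Finset.mul_sum]
  rw [Finset.sum_comm]
  exact Finset.sum_congr rfl fun τ _ => key g (τ⁻¹ * s * τ)

/-- FD3b -/
theorem moebius_total_pos (n : ℕ) (hn : 0 < n) :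
    0 < ∑ d ∈ n.divisors, (moebius d : ℤ) * ((n / d : ℕ) : ℤ) := by
  have h := (sum_eq_iff_sum_mul_moebius_eq (R := ℤ) (f := fun i => (Nat.totient i : ℤ))
    (g := fun i => (i : ℤ))).1 (by
      intro m _
      have := Nat.sum_totient m
      exact_mod_cast this) n hn
  have h2 := Nat.sum_divisorsAntidiagonal (n := n) (fun a b => (moebius a : ℤ) * (b : ℤ))
  simp only [Int.cast_id] at h
  rw [← h2, h]
  exact_mod_cast Nat.totient_pos.2 hn

end Fermat.Agent.S29
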