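import Fermat.Agent.S29.FDAsymp
import Fermat.Agent.S29.FDFixed
import Fermat.Agent.S29.FDMoebius
import Fermat.Agent.S29.FDBridge
import Fermat.Agent.S29.FDConj
import Fermat.Agent.S29.FDAnalytic

/-!
# S29, FD5: Frobenius density, lite
-/

set_option autoImplicit false

open ArithmeticFunction Filter Topology
open scoped Pointwise

namespace Fermat.Agent.S29

instance fdNumberField (L : IntermediateField ℚ (AlgebraicClosure ℚ)) [FiniteDimensional ℚ L]
    (M : IntermediateField ℚ L) : NumberField M where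
  to_charZero := inferInstance
  to_finiteDimensional := inferInstance

/-- the case of a normal level. -/
theorem frobenius_density_lite_normal (L : IntermediateField ℚ (AlgebraicClosure ℚ))
    [FiniteDimensional ℚ L] [Normal ℚ L] (S : Finset ℕ) (g : GQ) :
    ∃ ℓ : ℕ, ℓ.Prime ∧ ℓ ∉ S ∧ ∃ A : ValuationSubring (AlgebraicClosure ℚ), A.LiesOverPrime ℓ ∧
      ∃ σ : GQ, A.IsFrobeniusAt σ ℓ ∧ ∃ b : ℕ, ∀ x ∈ L, (σ ^ b) x = g x := by
  classical
  have hnormal : Normal ℚ (AlgebraicClosure ℚ) := Fermat.Agent.S54.isGalois_Lb.to_normal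
  set res := AlgEquiv.restrictNormalHom (F := ℚ) (K₁ := AlgebraicClosure ℚ) L with hres
  set gb := res g with hgb
  set n := orderOf gb with hn
  have hnpos : 0 < n := orderOf_pos gb
  let H : ℕ → Subgroup (L ≃ₐ[ℚ] L) := fun d => Subgroup.zpowers (gb ^ d)
  have hcardH : ∀ d ∈ n.divisors, Nat.card (H d) = n / d := by
    intro d hd
    have hd' := Nat.mem_divisors.1 hd
    rw [Nat.card_zpowers, orderOf_pow_of_dvd (Nat.pos_of_mem_divisors hd).ne' hd'.1]
  choose B hB using fun d : ℕ => nDeg_eq_nFix (IntermediateField.fixedField (H d))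
  obtain ⟨ℓ, hℓ, hℓB, hne⟩ := fd_analytic n.divisors
    (fun d => (moebius d : ℤ) * ((n / d : ℕ) : ℤ)) (moebius_total_pos n hnpos)
    (fun d s => Fermat.Agent.S14.primeSum (degOne (IntermediateField.fixedField (H d))) s)
    (fun d ℓ => nDeg (IntermediateField.fixedField (H d)) ℓ)
    (fun d _ => degOne_asymp _) (fun d _ s hs => hasSum_nDeg _ hs)
    (S ∪ n.divisors.biUnion B)
  obtain ⟨A, σ, hA, hσ⟩ := Fermat.Agent.S54.exists_frob ℓ hℓ
  have hℓS : ℓ ∉ S := fun h => hℓB (Finset.mem_union_left _ h)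
  have h1 : ∑ d ∈ n.divisors, (moebius d : ℤ) * ((n / d : ℕ) : ℤ) *
        (nDeg (IntermediateField.fixedField (H d)) ℓ : ℤ)
      = (Nat.card {τ : L ≃ₐ[ℚ] L //
          Subgroup.zpowers (τ⁻¹ * res σ * τ) = Subgroup.zpowers gb} : ℤ) := by
    rw [← moebius_count gb (res σ)]
    refine Finset.sum_congr rfl fun d hd => ?_
    have hℓd : ℓ ∉ B d := fun h =>
      hℓB (Finset.mem_union_right _ (Finset.mem_biUnion.2 ⟨d, hd, h⟩))
    rw [hB d ℓ hℓ hℓd A hA σ hσ, mul_assoc, ← hcardH d hd]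
    congr 1
    exact_mod_cast card_mul_nFix L (H d) σ
  rw [h1] at hne
  have h2 : Nat.card {τ : L ≃ₐ[ℚ] L //
      Subgroup.zpowers (τ⁻¹ * res σ * τ) = Subgroup.zpowers gb} ≠ 0 := by exact_mod_cast hne
  obtain ⟨⟨τ, hτ⟩⟩ := (Nat.card_ne_zero.1 h2).1
  obtain ⟨tt, rfl⟩ := AlgEquiv.restrictNormalHom_surjective (F := ℚ) (K₁ := L)
    (AlgebraicClosure ℚ) τ
  have h3 : gb ∈ Subgroup.zpowers ((res tt)⁻¹ * res σ * res tt) := by
    rw [hτ]
    exact Subgroup.mem_zpowers gb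
  rw [← mem_powers_iff_mem_zpowers] at h3
  obtain ⟨b, hb⟩ := h3
  refine ⟨ℓ, hℓ, hℓS, tt⁻¹ • A, liesOverPrime_smul A _ hA, tt⁻¹ * σ * tt, ?_, b, ?_⟩
  · have := IsFrobeniusAt_conj A σ tt⁻¹ hσ
    rwa [inv_inv] at this
  · intro x hx
    have h4 : res ((tt⁻¹ * σ * tt) ^ b) = res g := by
      rw [map_pow, map_mul, map_mul, map_inv]
      exact hb
    have h5 := congrArg (fun f : L ≃ₐ[ℚ] L => ((f ⟨x, hx⟩ : L) : AlgebraicClosure ℚ)) h4
    have e1 := AlgEquiv.restrictNormal_commutes ((tt⁻¹ * σ * tt) ^ b) L ⟨x, hx⟩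
    have e2 := AlgEquiv.restrictNormal_commutes g L ⟨x, hx⟩
    exact e1.symm.trans (h5.trans e2)

/-- FD5: every element of a finite Galois group is a power of a Frobenius element at a prime
outside a given finite set. -/
theorem frobenius_density_lite (L : IntermediateField ℚ (AlgebraicClosure ℚ))
    [FiniteDimensional ℚ L] (S : Finset ℕ) (g : GQ) :
    ∃ ℓ : ℕ, ℓ.Prime ∧ ℓ ∉ S ∧ ∃ A : ValuationSubring (AlgebraicClosure ℚ), A.LiesOverPrime ℓ ∧
      ∃ σ : GQ, A.IsFrobeniusAt σ ℓ ∧ ∃ b : ℕ, ∀ x ∈ L, (σ ^ b) x = g x := by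
  have hnormal : Normal ℚ (AlgebraicClosure ℚ) := Fermat.Agent.S54.isGalois_Lb.to_normal
  have hn2 : Normal ℚ (IntermediateField.normalClosure ℚ L (AlgebraicClosure ℚ)) :=
    normalClosure.normal ℚ L (AlgebraicClosure ℚ)
  have hn3 : FiniteDimensional ℚ (IntermediateField.normalClosure ℚ L (AlgebraicClosure ℚ)) :=
    normalClosure.is_finiteDimensional ℚ L (AlgebraicClosure ℚ)
  obtain ⟨ℓ, h1, h2, A, hA, σ, hσ, b, hb⟩ :=
    frobenius_density_lite_normal (IntermediateField.normalClosure ℚ L (AlgebraicClosure ℚ)) S g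
  exact ⟨ℓ, h1, h2, A, hA, σ, hσ, b, fun x hx => hb x (IntermediateField.le_normalClosure L hx)⟩

end Fermat.Agent.S29
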