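import Fermat.Agent.S29.Interface
import Fermat.Prelude.Def_ExtCitation_KummerBridge
import Fermat.Agent.S14.TR.V3Cyclo
import Fermat.Agent.S54.Frob
import Fermat.Agent.S05.InertiaFacts

/-!
# S29, RHO3: the mod `p` cyclotomic character on Frobenius lifts and inertia
-/

set_option autoImplicit false

namespace Fermat.Agent.S29

open ExtCitation

local notation "Lb" => AlgebraicClosure ℚ

theorem rho3_sub_pow_mem_nonunits {A : ValuationSubring Lb} {σ : GQ} {ℓ : ℕ}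
    (hσ : A.IsFrobeniusAt σ ℓ) {x : Lb} (hx : x ∈ A) : σ x - x ^ ℓ ∈ A.nonunits := by
  have h2 := hσ.smul_residue_eq (IsLocalRing.residue A ⟨x, hx⟩)
  rw [← IsLocalRing.ResidueField.residue_smul, ← map_pow, ← sub_eq_zero, ← map_sub,
    IsLocalRing.residue_eq_zero_iff] at h2
  exact (ValuationSubring.mem_nonunits_iff_exists_mem_maximalIdeal).mpr ⟨_, h2⟩

theorem rho3_mem_of_pow_eq_one (A : ValuationSubring Lb) {n : ℕ} (hn : 0 < n) {μ : Lb}
    (hμ : μ ^ n = 1) : μ ∈ A := by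
  apply Fermat.Agent.S54.integralClosure_le A μ
  exact ⟨Polynomial.X ^ n - 1, Polynomial.monic_X_pow_sub_C 1 hn.ne', by simp [hμ]⟩

theorem rho3_zero_mem_nonunits (A : ValuationSubring Lb) : (0 : Lb) ∈ A.nonunits := by
  rw [ValuationSubring.mem_nonunits_iff, map_zero]
  exact zero_lt_one

theorem rho3_pow_sub_one_mem (A : ValuationSubring Lb) {μ : Lb} (hμA : μ ∈ A)
    (h : μ - 1 ∈ A.nonunits) (i : ℕ) : μ ^ i - 1 ∈ A.nonunits := by
  induction i with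
  | zero => simp [rho3_zero_mem_nonunits A]
  | succ i ih =>
    have e : μ ^ (i + 1) - 1 = (μ - 1) * μ ^ i + (μ ^ i - 1) := by ring
    rw [e]
    exact Fermat.Agent.S54.nonunits_add A
      (Fermat.Agent.S54.nonunits_mul_mem A h (pow_mem hμA i)) ih

/-- a `p`-th root of unity congruent to `1` modulo a place over `ℓ ≠ p` is `1`. -/
theorem rho3_eq_one_of_sub_one_mem {p : ℕ} (hp : p.Prime) {ℓ : ℕ} (hℓ : ℓ.Prime) (hℓp : ℓ ≠ p)
    (A : ValuationSubring Lb) (hA : A.LiesOverPrime ℓ) {μ : Lb} (hμ : μ ^ p = 1)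
    (h : μ - 1 ∈ A.nonunits) : μ = 1 := by
  by_contra hne
  have hprim : IsPrimitiveRoot μ p := by
    have : Fact p.Prime := ⟨hp⟩
    have ho : orderOf μ = p := orderOf_eq_prime hμ hne
    rw [← ho]
    exact IsPrimitiveRoot.orderOf μ
  have hμA : μ ∈ A := rho3_mem_of_pow_eq_one A hp.pos hμ
  have hgeom : ∑ i ∈ Finset.range p, μ ^ i = 0 := hprim.geom_sum_eq_zero hp.one_lt
  have hsum : ∀ n : ℕ, ∑ i ∈ Finset.range n, (μ ^ i - 1) ∈ A.nonunits := by
    intro n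
    induction n with
    | zero => simp [rho3_zero_mem_nonunits A]
    | succ n ih =>
      rw [Finset.sum_range_succ]
      exact Fermat.Agent.S54.nonunits_add A ih (rho3_pow_sub_one_mem A hμA h n)
  have h1 := hsum p
  rw [Finset.sum_sub_distrib, hgeom] at h1
  simp only [Finset.sum_const, Finset.card_range, nsmul_eq_mul, mul_one, zero_sub] at h1
  have h2 : ((p : ℤ) : Lb) ∈ A.nonunits := by
    have := Fermat.Agent.S54.nonunits_neg A h1
    simpa using this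
  have : Algebra.IsAlgebraic ℚ Lb := AlgebraicClosure.isAlgebraic ℚ
  refine Fermat.Agent.S54.intCast_not_mem_nonunits A hℓ hA (p : ℤ) ?_ h2
  intro hdvd
  have : ℓ ∣ p := by exact_mod_cast hdvd
  exact hℓp ((Nat.prime_dvd_prime_iff_eq hℓ hp).1 this)

/-- two `p`-th roots of unity congruent modulo a place over `ℓ ≠ p` are equal. -/
theorem rho3_eq_of_sub_mem {p : ℕ} (hp : p.Prime) {ℓ : ℕ} (hℓ : ℓ.Prime) (hℓp : ℓ ≠ p)
    (A : ValuationSubring Lb) (hA : A.LiesOverPrime ℓ) {μ ν : Lb} (hμ : μ ^ p = 1)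
    (hν : ν ^ p = 1) (h : μ - ν ∈ A.nonunits) : μ = ν := by
  have hν0 : ν ≠ 0 := by
    intro h0
    rw [h0, zero_pow hp.ne_zero] at hν
    exact zero_ne_one hν
  have hinv : (ν⁻¹) ^ p = 1 := by rw [inv_pow, hν, inv_one]
  have h1 : μ * ν⁻¹ - 1 ∈ A.nonunits := by
    have e : μ * ν⁻¹ - 1 = (μ - ν) * ν⁻¹ := by
      rw [sub_mul, mul_inv_cancel₀ hν0]
    rw [e]
    exact Fermat.Agent.S54.nonunits_mul_mem A h (rho3_mem_of_pow_eq_one A hp.pos hinv)
  have h2 := rho3_eq_one_of_sub_one_mem hp hℓ hℓp A hA (by rw [mul_pow, hμ, hinv, one_mul]) h1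
  field_simp at h2
  exact h2

/-- RHO3a -/
theorem cycloChar_frobenius (p : ℕ) [Fact p.Prime] {ℓ : ℕ} (hℓ : ℓ.Prime) (hℓp : ℓ ≠ p)
    (A : ValuationSubring (AlgebraicClosure ℚ)) (hA : A.LiesOverPrime ℓ) (σ : GQ)
    (hσ : A.IsFrobeniusAt σ ℓ) : ((cycloChar p σ : (ZMod p)ˣ) : ZMod p) = (ℓ : ZMod p) := by
  have hp : p.Prime := Fact.out
  obtain ⟨ζ, hζ⟩ := Fermat.Agent.S14.TR.exists_primitiveRoot_Lb (p := p)
  rw [coe_cycloChar]
  apply Fermat.Agent.S14.TR.cycloExp_cast_eq_of_apply ζ hζ σ ℓ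
  apply rho3_eq_of_sub_mem hp hℓ hℓp A hA
  · rw [← map_pow, hζ.pow_eq_one, map_one]
  · rw [← pow_mul, mul_comm, pow_mul, hζ.pow_eq_one, one_pow]
  · exact rho3_sub_pow_mem_nonunits hσ (rho3_mem_of_pow_eq_one A hp.pos hζ.pow_eq_one)

/-- RHO3b -/
theorem cycloChar_inertia (p : ℕ) [Fact p.Prime] {ℓ : ℕ} (hℓ : ℓ.Prime) (hℓp : ℓ ≠ p)
    (A : ValuationSubring (AlgebraicClosure ℚ)) (hA : A.LiesOverPrime ℓ) (σ : GQ)
    (hσ : σ ∈ A.inertiaSubgroupIn ℚ) : cycloChar p σ = 1 := by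
  have hp : p.Prime := Fact.out
  obtain ⟨ζ, hζ⟩ := Fermat.Agent.S14.TR.exists_primitiveRoot_Lb (p := p)
  apply Units.ext
  rw [coe_cycloChar, Units.val_one, Fermat.Agent.S14.TR.cycloExp_cast_eq_one_iff ζ hζ σ]
  apply rho3_eq_of_sub_mem hp hℓ hℓp A hA
  · rw [← map_pow, hζ.pow_eq_one, map_one]
  · exact hζ.pow_eq_one
  · exact Fermat.Agent.S05.sub_mem_nonunits_of_mem_inertia hσ
      (rho3_mem_of_pow_eq_one A hp.pos hζ.pow_eq_one)

/-- RHO3c -/
theorem cycloChar_level (p : ℕ) [Fact p.Prime] :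
    ∃ L : IntermediateField ℚ (AlgebraicClosure ℚ), FiniteDimensional ℚ L ∧
      ∀ σ τ : GQ, (∀ x ∈ L, σ x = τ x) → cycloChar p σ = cycloChar p τ := by
  obtain ⟨ζ, hζ⟩ := Fermat.Agent.S14.TR.exists_primitiveRoot_Lb (p := p)
  have hint : IsIntegral ℚ ζ := (AlgebraicClosure.isAlgebraic ℚ).isIntegral.isIntegral ζ
  refine ⟨IntermediateField.adjoin ℚ {ζ}, IntermediateField.adjoin.finiteDimensional hint, ?_⟩
  intro σ τ h
  apply Units.ext
  rw [coe_cycloChar, coe_cycloChar]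
  apply Fermat.Agent.S14.TR.cycloExp_cast_eq_of_apply ζ hζ σ
  rw [h ζ (IntermediateField.mem_adjoin_simple_self ℚ ζ)]
  exact Fermat.Agent.S14.TR.apply_eq_pow_cycloExp ζ hζ.pow_eq_one τ

end Fermat.Agent.S29
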