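import Fermat.Agent.S29.Quad

/-!
# S29, RHO2: passing to a minimal stable subspace; powers
-/

set_option autoImplicit false

open Polynomial

namespace Fermat.Agent.S29

/-- if `x` satisfies `X² - a X + d` then `x ^ b` satisfies `X² - a_b X + d ^ b`. -/
theorem quad_pow {K : Type*} [Field K] {W : Type*} [AddCommGroup W] [Module K W]
    {x : Module.End K W} {a d : K} (h : x * x - a • x + d • 1 = 0) (b : ℕ) :
    ∃ a' : K, x ^ b * x ^ b - a' • x ^ b + (d ^ b) • 1 = 0 := by
  set y : Module.End K W := a • 1 - x with hy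
  have hxy : x * y = d • 1 := by
    have h1 : x * y = -(x * x - a • x + d • 1) + d • 1 := by
      rw [hy, mul_sub, mul_smul_comm, mul_one]
      abel
    rw [h1, h]
    simp
  have hcomm : Commute x y := by
    rw [hy]
    exact (Commute.smul_right (Commute.one_right x) a).sub_right (Commute.refl x)
  have hsum : ∀ b : ℕ, (∃ a' : K, x ^ b + y ^ b = a' • 1) ∧ ∃ a' : K, x ^ (b + 1) + y ^ (b + 1) = a' • 1 := by
    intro b
    induction b with
    | zero =>
      refine ⟨⟨2, ?_⟩, ⟨a, ?_⟩⟩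
      · rw [pow_zero, pow_zero, two_smul]
      · rw [zero_add, pow_one, pow_one, hy]
        abel
    | succ b ih =>
      obtain ⟨⟨a₀, h₀⟩, ⟨a₁, h₁⟩⟩ := ih
      refine ⟨⟨a₁, h₁⟩, ⟨a * a₁ - d * a₀, ?_⟩⟩
      have h2 : x ^ (b + 1 + 1) + y ^ (b + 1 + 1)
          = (x + y) * (x ^ (b + 1) + y ^ (b + 1)) - (x * y) * (x ^ b + y ^ b) := by
        have e1 : y * x ^ (b + 1) = x * y * x ^ b := by
          rw [pow_succ', ← mul_assoc, hcomm.eq]
        have e2 : x * y ^ (b + 1) = x * y * y ^ b := by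
          rw [pow_succ', ← mul_assoc]
        rw [add_mul, mul_add, mul_add, mul_add, e1, e2, pow_succ' x (b + 1), pow_succ' y (b + 1)]
        abel
      have h3 : x + y = a • 1 := by
        rw [hy]
        abel
      rw [h2, h3, h₁, h₀, hxy, smul_mul_smul_comm, smul_mul_smul_comm, one_mul, sub_smul]
  obtain ⟨a', ha'⟩ := (hsum b).1
  refine ⟨a', ?_⟩
  have h4 : x ^ b * y ^ b = (d ^ b) • 1 := by
    rw [← hcomm.mul_pow, hxy, _root_.smul_pow, one_pow]
  have h5 : x ^ b * x ^ b - a' • x ^ b + (d ^ b) • 1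
      = x ^ b * (x ^ b + y ^ b) - a' • x ^ b := by
    rw [mul_add, h4]
    abel
  rw [h5, ha', mul_smul_comm, mul_one, sub_self]

/-- `quad_pow` on a stable subspace. -/
theorem quad_pow_on {K : Type*} [Field K] {Y : Type*} [AddCommGroup Y] [Module K Y]
    (x : Module.End K Y) (E : Submodule K Y) (hE : ∀ y ∈ E, x y ∈ E) {a d : K}
    (h : ∀ y ∈ E, x (x y) - a • x y + d • y = 0) (b : ℕ) :
    ∃ a' : K, ∀ y ∈ E, (x ^ b) ((x ^ b) y) - a' • (x ^ b) y + (d ^ b) • y = 0 := by
  let s : Module.End K E := x.restrict hE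
  have hs : s * s - a • s + d • 1 = 0 := by
    ext y
    simpa [s] using h y y.2
  obtain ⟨a', ha'⟩ := quad_pow hs b
  refine ⟨a', fun y hy => ?_⟩
  have hpow : ∀ (n : ℕ) (y : E), ((s ^ n) y : Y) = (x ^ n) y := by
    intro n
    induction n with
    | zero => intro y; simp
    | succ n ih =>
      intro y
      rw [pow_succ, pow_succ, Module.End.mul_apply, Module.End.mul_apply, ih]
      rfl
  have h5 := congrArg (fun f : Module.End K E => ((f ⟨y, hy⟩ : E) : Y)) ha'
  simp only [LinearMap.add_apply, LinearMap.sub_apply, Module.End.mul_apply,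
    LinearMap.smul_apply, Module.End.one_apply, LinearMap.zero_apply, Submodule.coe_add,
    Submodule.coe_sub, Submodule.coe_smul, hpow, Submodule.coe_zero] at h5
  exact h5

/-- extraction of a two dimensional representation from a nonzero stable subspace on which every
group element satisfies a quadratic relation with "determinant" `χ`. -/
theorem exists_two_dim {K : Type} [Field K] [IsAlgClosed K] {G : Type*} [Group G] {Y : Type}
    [AddCommGroup Y] [Module K Y] [FiniteDimensional K Y] (R : G →* Module.End K Y)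
    (E : Submodule K Y) (hE0 : E ≠ ⊥) (hE : ∀ g, ∀ x ∈ E, R g x ∈ E) (χ : G →* Kˣ)
    (hq : ∀ g, ∃ a : K, ∀ x ∈ E, R g (R g x) - a • R g x + (χ g : K) • x = 0) :
    ∃ ρ' : G →* Module.End K (Fin 2 → K),
      (∀ g, R g = 1 → χ g = 1 → ρ' g = 1) ∧
      ∀ (g : G) (a : K), (∀ x ∈ E, R g (R g x) - a • R g x + (χ g : K) • x = 0) →
        LinearMap.charpoly (ρ' g) = X ^ 2 - C a * X + C (χ g : K) := by
  classical
  -- a stable nonzero subspace of minimal dimension
  let P : ℕ → Prop := fun n => ∃ U : Submodule K Y, U ≤ E ∧ U ≠ ⊥ ∧ (∀ g, ∀ x ∈ U, R g x ∈ U) ∧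
    Module.finrank K U = n
  have hP : ∃ n, P n := ⟨_, E, le_rfl, hE0, hE, rfl⟩
  obtain ⟨U, hUE, hU0, hU, hUn⟩ := Nat.find_spec hP
  have hmin : ∀ U' : Submodule K Y, U' ≤ E → U' ≠ ⊥ → (∀ g, ∀ x ∈ U', R g x ∈ U') →
      Module.finrank K U ≤ Module.finrank K U' := by
    intro U' h1 h2 h3
    rw [hUn]
    exact Nat.find_min' hP ⟨U', h1, h2, h3, rfl⟩
  let ρ : G →* Module.End K U :=
    { toFun := fun g => (R g).restrict (hU g)
      map_one' := by
        ext x
        simp
      map_mul' := by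
        intro g h
        ext x
        simp }
  have hρ : ∀ g (x : U), ((ρ g x : U) : Y) = R g x := fun g x => rfl
  have : Nontrivial U := Submodule.nontrivial_iff_ne_bot.2 hU0
  have hirr : ∀ U' : Submodule K U, (∀ g, ∀ x ∈ U', ρ g x ∈ U') → U' = ⊥ ∨ U' = ⊤ := by
    intro U' hU'
    by_cases h0 : U' = ⊥
    · exact Or.inl h0
    right
    apply Submodule.eq_top_of_finrank_eq
    apply le_antisymm (Submodule.finrank_le _)
    rw [← Submodule.finrank_map_subtype_eq U U']
    apply hmin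
    · rintro _ ⟨x, _, rfl⟩
      exact hUE x.2
    · intro h1
      apply h0
      rw [eq_bot_iff]
      intro x hx
      have h4 : (x : Y) ∈ Submodule.map U.subtype U' := ⟨x, hx, rfl⟩
      rw [h1] at h4
      simpa using h4
    · rintro g _ ⟨x, hx, rfl⟩
      exact ⟨ρ g x, hU' g x hx, rfl⟩
  have hrel : ∀ (g : G) (a : K), (∀ x ∈ E, R g (R g x) - a • R g x + (χ g : K) • x = 0) →
      ρ g * ρ g - a • ρ g + (χ g : K) • 1 = 0 := by
    intro g a h
    ext x
    have := h x (hUE x.2)
    simpa [hρ] using this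
  obtain ⟨ρ', h1, h2⟩ := quad_rep ρ hirr χ (fun g => by
    obtain ⟨a, ha⟩ := hq g
    exact ⟨a, hrel g a ha⟩)
  refine ⟨ρ', fun g hg hχ => h1 g ?_ hχ, fun g a ha => h2 g a (hrel g a ha)⟩
  ext x
  simp [hρ, hg]

end Fermat.Agent.S29
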