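import Fermat.Agent.S29.FDMain
import Fermat.Agent.S29.Minimal
import Fermat.Agent.S29.Cyclo

/-!
# S29, RHO4: extraction of the two dimensional representation
-/

set_option autoImplicit false

open Polynomial ExtCitation
open scoped TensorProduct

namespace Fermat.Agent.S29

/-- the trivial two dimensional representation. -/
noncomputable def trivialRep (K : Type) [Field K] : ResidualGaloisRep K where
  V := Fin 2 → K
  finrank_eq := by simp
  ρ := 1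
  factorsThroughFiniteLevel := ⟨⊥, inferInstance, fun _ _ => rfl⟩

/-- RHO4 -/
theorem exists_rep {N p : ℕ} [Fact p.Prime] (D : ESDatum N p) {K : Type} [Field K] [IsAlgClosed K]
    [Algebra (ZMod p) K] (c : ℕ → K) (h : D.Occurs c) :
    ∃ ρ : ResidualGaloisRep K,
      (∀ ℓ : ℕ, ℓ.Prime → ¬ ℓ ∣ N * p →
        ∀ A : ValuationSubring (AlgebraicClosure ℚ), A.LiesOverPrime ℓ →
          ∀ σ : GQ, A.IsFrobeniusAt σ ℓ →
            LinearMap.charpoly (ρ.ρ σ) = X ^ 2 - C (c ℓ) * X + C (ℓ : K)) ∧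
      (∀ ℓ : ℕ, ℓ.Prime → ¬ ℓ ∣ N * p → ρ.IsUnramifiedAt ℓ) := by
  have hp : p.Prime := Fact.out
  by_cases hN : N = 0
  · subst hN
    exact ⟨trivialRep K, fun ℓ _ h => absurd (by simp) h, fun ℓ _ h => absurd (by simp) h⟩
  have hNp : N * p ≠ 0 := Nat.mul_ne_zero hN hp.ne_zero
  obtain ⟨v, hv0, hv⟩ := h
  let bc : Module.End (ZMod p) D.V →ₐ[ZMod p] Module.End K (K ⊗[ZMod p] D.V) :=
    Module.End.baseChangeHom (ZMod p) K D.V
  have hbc : ∀ f, bc f = f.baseChange K := fun f => rfl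
  let R : GQ →* Module.End K (K ⊗[ZMod p] D.V) := (bc : _ →* _).comp D.ρ
  have hR : ∀ σ, R σ = bc (D.ρ σ) := fun σ => rfl
  obtain ⟨E, hmemE⟩ : ∃ E : Submodule K (K ⊗[ZMod p] D.V),
      ∀ x, x ∈ E ↔ ∀ ℓ : ℕ, ℓ.Prime → ¬ ℓ ∣ N * p → bc (D.T ℓ) x = c ℓ • x := by
    refine ⟨⨅ ℓ : {ℓ : ℕ // ℓ.Prime ∧ ¬ ℓ ∣ N * p}, LinearMap.ker (bc (D.T ℓ) - c ℓ • 1), ?_⟩
    intro x
    simp only [Submodule.mem_iInf, LinearMap.mem_ker, LinearMap.sub_apply, LinearMap.smul_apply,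
      Module.End.one_apply, sub_eq_zero, Subtype.forall, and_imp]
  have hE0 : E ≠ ⊥ := by
    intro h0
    apply hv0
    have : v ∈ E := (hmemE v).2 hv
    rw [h0] at this
    simpa using this
  have hE : ∀ g, ∀ x ∈ E, R g x ∈ E := by
    intro g x hx
    rw [hmemE] at hx ⊢
    intro ℓ h1 h2
    have h3 : bc (D.T ℓ) * R g = R g * bc (D.T ℓ) := by
      rw [hR, ← map_mul, D.comm, map_mul]
    have h4 := congrArg (fun f : Module.End K (K ⊗[ZMod p] D.V) => f x) h3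
    simp only [Module.End.mul_apply] at h4
    rw [h4, hx ℓ h1 h2, map_smul]
  let χ : GQ →* Kˣ := (Units.map (algebraMap (ZMod p) K : ZMod p →* K)).comp (cycloChar p)
  have hχ : ∀ σ, (χ σ : K) = algebraMap (ZMod p) K ((cycloChar p σ : (ZMod p)ˣ) : ZMod p) :=
    fun σ => rfl
  -- the relation at Frobenius lifts
  have hfrob : ∀ ℓ : ℕ, ℓ.Prime → ¬ ℓ ∣ N * p →
      ∀ A : ValuationSubring (AlgebraicClosure ℚ), A.LiesOverPrime ℓ →
        ∀ σ : GQ, A.IsFrobeniusAt σ ℓ →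
          (χ σ : K) = (ℓ : K) ∧ ∀ x ∈ E, R σ (R σ x) - c ℓ • R σ x + (ℓ : K) • x = 0 := by
    intro ℓ h1 h2 A hA σ hσ
    have hℓp : ℓ ≠ p := by
      rintro rfl
      exact h2 (Dvd.intro_left N rfl)
    refine ⟨by rw [hχ, cycloChar_frobenius p h1 hℓp A hA σ hσ, map_natCast], fun x hx => ?_⟩
    have h3 := congrArg bc (D.es ℓ h1 h2 A hA σ hσ)
    rw [map_add, map_sub, map_mul, map_mul, map_smul, map_one, map_zero] at h3
    have h4 := congrArg (fun f : Module.End K (K ⊗[ZMod p] D.V) => f x) h3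
    simp only [LinearMap.add_apply, LinearMap.sub_apply, Module.End.mul_apply,
      LinearMap.smul_apply, Module.End.one_apply, LinearMap.zero_apply] at h4
    rw [← hR, (hmemE _).1 (hE σ x hx) ℓ h1 h2, Nat.cast_smul_eq_nsmul] at h4
    rw [Nat.cast_smul_eq_nsmul]
    exact h4
  -- a common finite level
  obtain ⟨L₀, hL₀fin, hL₀⟩ := D.level
  obtain ⟨L₁, hL₁fin, hL₁⟩ := cycloChar_level p
  have hLfin : FiniteDimensional ℚ (L₀ ⊔ L₁ : IntermediateField ℚ (AlgebraicClosure ℚ)) :=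
    IntermediateField.finiteDimensional_sup L₀ L₁
  have hlevel : ∀ σ τ : GQ, (∀ x ∈ (L₀ ⊔ L₁ : IntermediateField ℚ (AlgebraicClosure ℚ)), σ x = τ x) →
      R σ = R τ ∧ χ σ = χ τ := by
    intro σ τ hστ
    constructor
    · have h1 : D.ρ (τ⁻¹ * σ) = 1 := by
        apply hL₀
        intro x hx
        have := hστ x ((le_sup_left : L₀ ≤ L₀ ⊔ L₁) hx)
        rw [AlgEquiv.mul_apply, this]
        exact τ.symm_apply_apply x
      have h2 : D.ρ σ = D.ρ τ := by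
        have : σ = τ * (τ⁻¹ * σ) := by group
        rw [this, map_mul, h1, mul_one]
      rw [hR, hR, h2]
    · have := hL₁ σ τ (fun x hx => hστ x ((le_sup_right : L₁ ≤ L₀ ⊔ L₁) hx))
      simp only [χ, MonoidHom.comp_apply, this]
  have hq : ∀ g, ∃ a : K, ∀ x ∈ E, R g (R g x) - a • R g x + (χ g : K) • x = 0 := by
    intro g
    obtain ⟨ℓ, h1, h2, A, hA, σ, hσ, b, hb⟩ :=
      frobenius_density_lite (L₀ ⊔ L₁) (N * p).primeFactors g
    have h3 : ¬ ℓ ∣ N * p := fun hd => h2 (Nat.mem_primeFactors.2 ⟨h1, hd, hNp⟩)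
    obtain ⟨hχσ, hrel⟩ := hfrob ℓ h1 h3 A hA σ hσ
    obtain ⟨hRg, hχg⟩ := hlevel (σ ^ b) g hb
    obtain ⟨a', ha'⟩ := quad_pow_on (R σ) E (hE σ) hrel b
    refine ⟨a', fun x hx => ?_⟩
    rw [← hRg, ← hχg, map_pow, map_pow, Units.val_pow_eq_pow_val, hχσ]
    exact ha' x hx
  obtain ⟨ρ', h1, h2⟩ := exists_two_dim R E hE0 hE χ hq
  refine ⟨{ V := Fin 2 → K
            finrank_eq := by simp
            ρ := ρ'
            factorsThroughFiniteLevel := ⟨L₀ ⊔ L₁, hLfin, fun σ hσ => ?_⟩ }, ?_, ?_⟩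
  · obtain ⟨h3, h4⟩ := hlevel σ 1 (fun x hx => by simpa using hσ x hx)
    exact h1 σ (by rw [h3, map_one]) (by rw [h4, map_one])
  · intro ℓ h3 h4 A hA σ hσ
    obtain ⟨hχσ, hrel⟩ := hfrob ℓ h3 h4 A hA σ hσ
    have := h2 σ (c ℓ) (by rw [hχσ]; exact hrel)
    rw [hχσ] at this
    exact this
  · intro ℓ h3 h4 A hA σ hσ
    have hℓp : ℓ ≠ p := by
      rintro rfl
      exact h4 (Dvd.intro_left N rfl)
    apply h1 σ
    · rw [hR, D.unram ℓ h3 h4 A hA σ hσ, map_one]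
    · simp only [χ, MonoidHom.comp_apply, cycloChar_inertia p h3 hℓp A hA σ hσ, map_one]

end Fermat.Agent.S29
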