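import Mathlib

/-!
# S29 / S42: residue fields of the ring of all algebraic integers are algebraically closed
-/

set_option autoImplicit false

namespace Fermat.Agent.S29

open Polynomial

/-- the kernel of a ring homomorphism from `ℤ̄` to a field of characteristic `p` is maximal. -/
theorem ker_isMaximal {p : ℕ} (hp : p.Prime) {k : Type} [Field k] [CharP k p]
    (φ : integralClosure ℤ ℂ →+* k) : (RingHom.ker φ).IsMaximal := by
  haveI : Algebra.IsIntegral ℤ (integralClosure ℤ ℂ) := inferInstance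
  haveI : (RingHom.ker φ).IsPrime := RingHom.ker_isPrime φ
  apply Ideal.isMaximal_of_isIntegral_of_isMaximal_comap (R := ℤ)
  have h1 : (RingHom.ker φ).comap (algebraMap ℤ (integralClosure ℤ ℂ)) =
      Ideal.span {(p : ℤ)} := by
    ext x
    rw [Ideal.mem_comap, RingHom.mem_ker, Ideal.mem_span_singleton]
    rw [eq_intCast, map_intCast]
    exact CharP.intCast_eq_zero_iff k p x
  rw [h1]
  have hpi : Prime (p : ℤ) := Nat.prime_iff_prime_int.1 hp
  exact PrincipalIdealRing.isMaximal_of_irreducible hpi.irreducible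

theorem natCast_mem_ker {p : ℕ} {k : Type} [Field k] [CharP k p]
    (φ : integralClosure ℤ ℂ →+* k) : (p : integralClosure ℤ ℂ) ∈ RingHom.ker φ := by
  rw [RingHom.mem_ker, map_natCast]
  exact CharP.cast_eq_zero k p

/-- residue fields of `ℤ̄` are algebraically closed. -/
theorem isAlgClosed_quotient (𝔪 : Ideal (integralClosure ℤ ℂ)) [h𝔪 : 𝔪.IsMaximal] :
    letI := Ideal.Quotient.field 𝔪
    IsAlgClosed (integralClosure ℤ ℂ ⧸ 𝔪) := by
  letI := Ideal.Quotient.field 𝔪
  apply IsAlgClosed.of_exists_root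
  intro q hq hirr
  have hmem : q ∈ Polynomial.lifts (Ideal.Quotient.mk 𝔪) := by
    rw [Polynomial.mem_lifts]
    exact Polynomial.map_surjective _ Ideal.Quotient.mk_surjective q
  obtain ⟨Q, hQ, hdeg, hmonic⟩ := Polynomial.lifts_and_degree_eq_and_monic hmem hq
  have hdeg' : (Q.map (algebraMap (integralClosure ℤ ℂ) ℂ)).degree ≠ 0 := by
    rw [hmonic.degree_map, hdeg]
    exact (Polynomial.degree_pos_of_irreducible hirr).ne'
  obtain ⟨z, hz⟩ := IsAlgClosed.exists_root _ hdeg'
  have hz1 : IsIntegral (integralClosure ℤ ℂ) z := by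
    refine ⟨Q, hmonic, ?_⟩
    rwa [IsRoot.def, eval_map] at hz
  have hz2 : IsIntegral ℤ z := isIntegral_trans z hz1
  let z' : integralClosure ℤ ℂ := ⟨z, hz2⟩
  have hz3 : Q.eval z' = 0 := by
    have : algebraMap (integralClosure ℤ ℂ) ℂ (Q.eval z') = 0 := by
      rw [← Polynomial.eval₂_at_apply, ← Polynomial.eval_map]
      exact hz
    exact (FaithfulSMul.algebraMap_injective (integralClosure ℤ ℂ) ℂ) (by rw [this, map_zero])
  refine ⟨Ideal.Quotient.mk 𝔪 z', ?_⟩
  rw [← hQ, Polynomial.eval_map, Polynomial.eval₂_at_apply, hz3, map_zero]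

end Fermat.Agent.S29
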