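import Fermat.Agent.S29.Geom
import Fermat.Agent.S29.Extract
import Fermat.Agent.S29.Residue

/-!
# S29 / S42: the residual representation attached to a normalized eigenform
-/

set_option autoImplicit false

open Polynomial
open scoped TensorProduct

namespace Fermat.Agent.S29

open CuspForm CongruenceSubgroup ModularFormClass

/-- the representation over an algebraically closed field. -/
theorem exists_rep_algClosed {N p : ℕ} [NeZero N] [Fact p.Prime]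
    {g : CuspForm (Gamma0 N) 2} (hg : g.IsNormalizedEigenform) {K : Type} [Field K]
    [IsAlgClosed K] [Algebra (ZMod p) K] (φ : integralClosure ℤ ℂ →+* K) :
    ∃ ρ : ResidualGaloisRep K,
      (∀ ℓ : ℕ, ℓ.Prime → ¬ ℓ ∣ N * p →
        ∀ A : ValuationSubring (AlgebraicClosure ℚ), A.LiesOverPrime ℓ →
          ∀ σ : GQ, A.IsFrobeniusAt σ ℓ →
            ∃ a : integralClosure ℤ ℂ, (a : ℂ) = qCoeff g ℓ ∧
              LinearMap.charpoly (ρ.ρ σ) = X ^ 2 - C (φ a) * X + C (ℓ : K)) ∧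
      (∀ ℓ : ℕ, ℓ.Prime → ¬ ℓ ∣ N * p → ρ.IsUnramifiedAt ℓ) := by
  obtain ⟨D, a, ha, hocc⟩ := exists_esDatum_occurs (p := p) hg φ
  obtain ⟨ρ, h1, h2⟩ := exists_rep D _ hocc
  refine ⟨ρ, fun ℓ hℓ hℓN A hA σ hσ => ⟨a ℓ, ha ℓ hℓ hℓN, ?_⟩, h2⟩
  exact h1 ℓ hℓ hℓN A hA σ hσ

/-- the representation over the residue field of a maximal ideal of `ℤ̄`. -/
theorem exists_rep_quotient {N p : ℕ} [NeZero N] [Fact p.Prime]
    {g : CuspForm (Gamma0 N) 2} (hg : g.IsNormalizedEigenform)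
    (𝔪 : Ideal (integralClosure ℤ ℂ)) [h𝔪 : 𝔪.IsMaximal] (hp : (p : integralClosure ℤ ℂ) ∈ 𝔪) :
    letI := Ideal.Quotient.field 𝔪
    ∃ ρ : ResidualGaloisRep (integralClosure ℤ ℂ ⧸ 𝔪),
      (∀ ℓ : ℕ, ℓ.Prime → ¬ ℓ ∣ N * p →
        ∀ A : ValuationSubring (AlgebraicClosure ℚ), A.LiesOverPrime ℓ →
          ∀ σ : GQ, A.IsFrobeniusAt σ ℓ →
            ∃ a : integralClosure ℤ ℂ, (a : ℂ) = qCoeff g ℓ ∧
              LinearMap.charpoly (ρ.ρ σ) = X ^ 2 - C (Ideal.Quotient.mk 𝔪 a) * X +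
                C (ℓ : integralClosure ℤ ℂ ⧸ 𝔪)) ∧
      (∀ ℓ : ℕ, ℓ.Prime → ¬ ℓ ∣ N * p → ρ.IsUnramifiedAt ℓ) := by
  letI := Ideal.Quotient.field 𝔪
  haveI := isAlgClosed_quotient 𝔪
  haveI : CharP (integralClosure ℤ ℂ ⧸ 𝔪) p := by
    have h0 : ((p : ℕ) : integralClosure ℤ ℂ ⧸ 𝔪) = 0 := by
      rw [← map_natCast (Ideal.Quotient.mk 𝔪)]
      exact Ideal.Quotient.eq_zero_iff_mem.2 hp
    have h1 := CharP.ringChar_of_prime_eq_zero (Fact.out : p.Prime) h0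
    rw [← h1]
    exact ringChar.charP _
  letI := ZMod.algebra (integralClosure ℤ ℂ ⧸ 𝔪) p
  exact exists_rep_algClosed hg (Ideal.Quotient.mk 𝔪)

theorem charpoly_baseChangeAlong {k k' : Type} [Field k] [Field k'] (ψ : k →+* k')
    (ρ : ResidualGaloisRep k) (σ : GQ) :
    LinearMap.charpoly ((ρ.baseChangeAlong ψ).ρ σ) = (LinearMap.charpoly (ρ.ρ σ)).map ψ := by
  letI : Algebra k k' := ψ.toAlgebra
  exact LinearMap.charpoly_baseChange (A := k') (ρ.ρ σ)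

theorem baseChangeAlong_eq_one {k k' : Type} [Field k] [Field k'] (ψ : k →+* k')
    (ρ : ResidualGaloisRep k) {σ : GQ} (h : ρ.ρ σ = 1) : (ρ.baseChangeAlong ψ).ρ σ = 1 := by
  letI : Algebra k k' := ψ.toAlgebra
  have h1 : (ρ.ρ σ).baseChange k' = 1 := by rw [h, LinearMap.baseChange_one]
  exact h1

end Fermat.Agent.S29
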