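import Fermat.Agent.S49.Forms
import Fermat.Prelude.Def_GaloisRep_Residual

/-!
# S29: a normalized eigenform (defined through its coefficients) is an eigenvector of `T_ℓ`
-/

set_option autoImplicit false

namespace Fermat.Agent.S29

open CuspForm CongruenceSubgroup ModularFormClass

theorem heckeTLin_eq_smul {N : ℕ} [NeZero N] {g : CuspForm (Gamma0 N) 2}
    (hg : g.IsNormalizedEigenform) {ℓ : ℕ} (hℓ : ℓ.Prime) (hℓN : ¬ ℓ ∣ N) :
    CuspForm.heckeTLin 2 hℓ hℓN g = qCoeff g ℓ • g := by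
  rw [← sub_eq_zero]
  apply Fermat.Agent.S49.eq_zero_of_qCoeff
  intro n
  rw [Fermat.Agent.S49.qCoeff_sub', Fermat.Agent.S49.qCoeff_smul',
    Fermat.Agent.S49.qCoeff_heckeTLin, sub_eq_zero]
  rcases Nat.eq_zero_or_pos n with rfl | hn
  · simp [Fermat.Agent.S49.qCoeff_zero_index]
  obtain ⟨r, m, hm, rfl⟩ := Nat.exists_eq_pow_mul_and_not_dvd hn.ne' ℓ hℓ.ne_one
  have hcop : ∀ s : ℕ, (ℓ ^ s).Coprime m := fun s =>
    Nat.Coprime.pow_left s ((Nat.Prime.coprime_iff_not_dvd hℓ).2 hm)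
  cases r with
  | zero =>
    have h1 : ¬ ℓ ∣ ℓ ^ 0 * m := by simpa using hm
    rw [if_neg h1, mul_zero, add_zero, pow_zero, one_mul]
    have := hg.qCoeff_mul_of_coprime ℓ m (by simpa using hcop 1)
    exact this
  | succ r =>
    have h1 : ℓ ∣ ℓ ^ (r + 1) * m := Dvd.dvd.mul_right (dvd_pow_self ℓ (Nat.succ_ne_zero r)) m
    have h2 : ℓ ^ (r + 1) * m / ℓ = ℓ ^ r * m := by
      rw [pow_succ, mul_assoc, mul_comm ℓ m, ← mul_assoc]
      exact Nat.mul_div_cancel _ hℓ.pos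
    have h3 : ℓ * (ℓ ^ (r + 1) * m) = ℓ ^ (r + 2) * m := by ring
    rw [if_pos h1, h2, h3, hg.qCoeff_mul_of_coprime _ _ (hcop _),
      hg.qCoeff_mul_of_coprime _ _ (hcop _), hg.qCoeff_mul_of_coprime _ _ (hcop _),
      hg.qCoeff_prime_pow_of_not_dvd ℓ r hℓ hℓN]
    ring

end Fermat.Agent.S29
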