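import Fermat.Agent.S29.Interface
import Fermat.Agent.S29.Eigenform
import Fermat.Agent.S30.Convert
import Fermat.Agent.S30.Eigen
import Fermat.Agent.GES.Big

/-!
# S29 / S42: from a Kummer system (at level `n = 1`) to an `ESDatum` in which the
eigensystem of a normalized eigenform occurs
-/

set_option autoImplicit false

open scoped TensorProduct

namespace Fermat.Agent.S29

open CuspForm CongruenceSubgroup ModularFormClass Fermat.Agent.S30

/-! ### linear algebra -/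

/-- reduction mod `p` of integer matrices, as endomorphisms of `𝔽_p ^ r`. -/
noncomputable def redEnd (p r : ℕ) :
    Matrix (Fin r) (Fin r) ℤ →+* Module.End (ZMod p) (Fin r → ZMod p) :=
  ((Matrix.toLinAlgEquiv' : Matrix (Fin r) (Fin r) (ZMod p) ≃ₐ[ZMod p] _) :
    Matrix (Fin r) (Fin r) (ZMod p) →+* Module.End (ZMod p) (Fin r → ZMod p)).comp
    (Int.castRingHom (ZMod p)).mapMatrix

theorem redEnd_apply (p r : ℕ) (M : Matrix (Fin r) (Fin r) ℤ) (f : Fin r → ZMod p) :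
    redEnd p r M f = (M.map (Int.castRingHom (ZMod p))).mulVec f := rfl

/-- an eigenvector in coordinates gives an eigenvector in the tensor product. -/
theorem exists_tensor_eigenvector {p r : ℕ} {K : Type} [Field K] [Algebra (ZMod p) K]
    (v : Fin r → K) (hv : v ≠ 0) :
    ∃ w : K ⊗[ZMod p] (Fin r → ZMod p), w ≠ 0 ∧
      ∀ (M : Matrix (Fin r) (Fin r) ℤ) (c : K), (M.map (Int.castRingHom K)).mulVec v = c • v →
        (redEnd p r M).baseChange K w = c • w := by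
  let e : K ⊗[ZMod p] (Fin r → ZMod p) ≃ₗ[K] (Fin r → K) :=
    TensorProduct.piScalarRight (ZMod p) K K (Fin r)
  have key : ∀ (M : Matrix (Fin r) (Fin r) ℤ) (x : K ⊗[ZMod p] (Fin r → ZMod p)),
      e ((redEnd p r M).baseChange K x) = (M.map (Int.castRingHom K)).mulVec (e x) := by
    intro M x
    induction x using TensorProduct.induction_on with
    | zero => simp
    | add x y hx hy => rw [map_add, map_add, map_add, Matrix.mulVec_add, hx, hy]
    | tmul k f =>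
      rw [LinearMap.baseChange_tmul]
      ext j
      simp only [e, TensorProduct.piScalarRight_apply, TensorProduct.piScalarRightHom_tmul,
        redEnd_apply, Matrix.mulVec, dotProduct, Matrix.map_apply, eq_intCast]
      rw [Finset.sum_smul]
      refine Finset.sum_congr rfl fun i _ => ?_
      rw [Algebra.smul_def, Algebra.smul_def, map_mul, map_intCast]
      ring
  refine ⟨e.symm v, fun h0 => hv ?_, fun M c h => ?_⟩
  · have := congrArg e h0
    rwa [LinearEquiv.apply_symm_apply, map_zero] at this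
  · apply e.injective
    rw [key, map_smul, LinearEquiv.apply_symm_apply, h]

/-- transport of an eigenvector along `H / p H ↪ W`. -/
theorem exists_eigenvector_of_kappa {p r : ℕ} [Fact p.Prime] {H W : Type} [AddCommGroup H]
    [AddCommGroup W] [Module (ZMod p) W] (b : Module.Basis (Fin r) ℤ H) (κ : H →+ W)
    (hκ : ∀ h, κ h = 0 → ∃ h' : H, h = p • h') {K : Type} [Field K] [Algebra (ZMod p) K]
    (v : Fin r → K) (hv : v ≠ 0) :
    ∃ w : K ⊗[ZMod p] W, w ≠ 0 ∧
      ∀ (T : Module.End ℤ H) (TW : Module.End (ZMod p) W) (c : K),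
        (∀ h, κ (T h) = TW (κ h)) →
        ((LinearMap.toMatrixAlgEquiv b T).map (Int.castRingHom K)).mulVec v = c • v →
        TW.baseChange K w = c • w := by
  let κb : (Fin r → ZMod p) →ₗ[ZMod p] W := Fintype.linearCombination (ZMod p) fun i => κ (b i)
  have hκb : ∀ f, κb f = ∑ i, f i • κ (b i) := fun f => Fintype.linearCombination_apply _ _ f
  have hint : ∀ (m : ℤ) (x : W), (m : ZMod p) • x = m • x := fun m x =>
    Int.cast_smul_eq_zsmul (ZMod p) m x
  have hinj : Function.Injective κb := by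
    rw [injective_iff_map_eq_zero]
    intro f hf
    rw [hκb] at hf
    obtain ⟨m, hm⟩ : ∃ m : Fin r → ℤ, ∀ i, (m i : ZMod p) = f i :=
      ⟨fun i => ((f i).val : ℤ), fun i => by simp⟩
    have h1 : κ (∑ i, m i • b i) = 0 := by
      rw [map_sum, ← hf]
      refine Finset.sum_congr rfl fun i _ => ?_
      rw [map_zsmul, ← hm, hint]
    obtain ⟨h', hh'⟩ := hκ _ h1
    funext i
    have h2 := congrArg (fun x => b.repr x i) hh'
    simp only [map_nsmul, Finsupp.smul_apply] at h2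
    rw [Module.Basis.repr_sum_self] at h2
    rw [Pi.zero_apply, ← hm, h2]
    simp
  have hinj' : Function.Injective (κb.baseChange K) := by
    rw [LinearMap.baseChange_eq_ltensor]
    exact Module.Flat.lTensor_preserves_injective_linearMap (M := K) κb hinj
  obtain ⟨w, hw0, hw⟩ := exists_tensor_eigenvector (p := p) v hv
  refine ⟨κb.baseChange K w, fun h0 => hw0 (hinj' (by rw [h0, map_zero])), ?_⟩
  intro T TW c hT hc
  have h1 : TW ∘ₗ κb = κb ∘ₗ redEnd p r (LinearMap.toMatrixAlgEquiv b T) := by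
    refine (Pi.basisFun (ZMod p) (Fin r)).ext fun i => ?_
    rw [LinearMap.comp_apply, LinearMap.comp_apply, hκb, hκb, Pi.basisFun_apply]
    have h2 : ∑ j, (Pi.single i (1 : ZMod p) : Fin r → ZMod p) j • κ (b j) = κ (b i) := by
      rw [Finset.sum_eq_single i]
      · simp
      · intro j _ hj
        simp [Pi.single_eq_of_ne hj]
      · simp
    rw [h2, ← hT]
    conv_lhs => rw [← b.sum_repr (T (b i))]
    rw [map_sum]
    refine Finset.sum_congr rfl fun j _ => ?_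
    rw [map_zsmul, ← hint]
    congr 1
    rw [redEnd_apply, Matrix.mulVec_single_one]
    simp [LinearMap.toMatrixAlgEquiv_apply]
  rw [← LinearMap.comp_apply, ← LinearMap.baseChange_comp, h1, LinearMap.baseChange_comp,
    LinearMap.comp_apply, hw _ c hc, map_smul]

/-! ### the big datum attached to a Kummer system -/

section big

variable {N p : ℕ} {W : Type} [AddCommGroup W] [Module (ZMod p) W]

/-- additive endomorphisms are `𝔽_p`-linear. -/
noncomputable def linOf : AddMonoid.End W →* Module.End (ZMod p) W where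
  toFun := fun f => (f : W →+ W).toZModLinearMap p
  map_one' := rfl
  map_mul' := fun _ _ => rfl

theorem linOf_apply (f : AddMonoid.End W) (w : W) : linOf (p := p) f w = f w := rfl

/-- the Hecke operators, extended by zero. -/
noncomputable def bigT (N p : ℕ) {W : Type} [AddCommGroup W] [Module (ZMod p) W]
    (TW : ℕ → AddMonoid.End W) (ℓ : ℕ) : Module.End (ZMod p) W :=
  if Good N p ℓ then linOf (TW ℓ) else 0

theorem bigT_of_good (TW : ℕ → AddMonoid.End W) {ℓ : ℕ} (h : Good N p ℓ) :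
    bigT N p TW ℓ = linOf (TW ℓ) := if_pos h

theorem bigT_of_not (TW : ℕ → AddMonoid.End W) {ℓ : ℕ} (h : ¬ Good N p ℓ) :
    bigT N p TW ℓ = 0 := if_neg h

/-- the mod `p` datum attached to a Kummer system (abstract form). -/
noncomputable def bigOf (N p : ℕ) {W : Type} [AddCommGroup W] [Module (ZMod p) W]
    (act : GQ →* AddMonoid.End W)
    (smooth : ∀ w : W, ∃ L : IntermediateField ℚ (AlgebraicClosure ℚ), FiniteDimensional ℚ L ∧
      ∀ σ : GQ, (∀ x ∈ L, σ x = x) → act σ w = w)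
    (TW : ℕ → AddMonoid.End W)
    (comm : ∀ ℓ : ℕ, ℓ.Prime → ¬ ℓ ∣ N * p → ∀ (σ : GQ) (w : W),
      TW ℓ (act σ w) = act σ (TW ℓ w))
    (es : ∀ ℓ : ℕ, ℓ.Prime → ¬ ℓ ∣ N * p →
      ∀ A : ValuationSubring (AlgebraicClosure ℚ), A.LiesOverPrime ℓ → ∀ σ : GQ,
        A.IsFrobeniusAt σ ℓ → ∀ w : W, act σ (act σ w) + ℓ • w = TW ℓ (act σ w))
    (unram : ∀ ℓ : ℕ, ℓ.Prime → ¬ ℓ ∣ N * p →
      ∀ A : ValuationSubring (AlgebraicClosure ℚ), A.LiesOverPrime ℓ →
        ∀ σ ∈ A.inertiaSubgroupIn ℚ, ∀ w : W, act σ w = w) :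
    Fermat.Agent.GES.ESBig N p where
  V := W
  ρ := linOf.comp act
  level := smooth
  T := bigT N p TW
  comm := fun ℓ σ => by
    by_cases h : Good N p ℓ
    · refine LinearMap.ext fun w => ?_
      rw [bigT_of_good TW h]
      exact comm ℓ h.1 h.2 σ w
    · rw [bigT_of_not TW h, zero_mul, mul_zero]
  es := fun ℓ hℓ hℓN A hA σ hσ => by
    have hg : Good N p ℓ := ⟨hℓ, hℓN⟩
    refine LinearMap.ext fun w => ?_
    have h1 := es ℓ hℓ hℓN A hA σ hσ w
    rw [bigT_of_good TW hg]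
    show act σ (act σ w) - TW ℓ (act σ w) + (ℓ : ZMod p) • w = 0
    rw [Nat.cast_smul_eq_nsmul, ← h1]
    abel
  unram := fun ℓ hℓ hℓN A hA σ hσ => by
    refine LinearMap.ext fun w => ?_
    exact unram ℓ hℓ hℓN A hA σ hσ w

end big

/-! ### the eigensystem of a normalized eigenform -/

open Classical in
/-- the eigenvalue of `heckeFam N ℓ` on `g`. -/
noncomputable def eigC {N : ℕ} (g : CuspForm (Gamma0 N) 2) (ℓ : ℕ) : ℂ :=
  if ℓ.Prime ∧ ¬ ℓ ∣ N then qCoeff g ℓ else 0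

theorem heckeFam_apply {N : ℕ} [NeZero N] {g : CuspForm (Gamma0 N) 2}
    (hg : g.IsNormalizedEigenform) (ℓ : ℕ) : S31.heckeFam N ℓ g = eigC g ℓ • g := by
  unfold S31.heckeFam eigC
  by_cases h : ℓ.Prime ∧ ¬ ℓ ∣ N
  · rw [dif_pos h, if_pos h, heckeTLin_eq_smul hg]
  · rw [dif_neg h, if_neg h, zero_smul, LinearMap.zero_apply]

theorem lift_heckeFam_apply {N : ℕ} [NeZero N] {g : CuspForm (Gamma0 N) 2}
    (hg : g.IsNormalizedEigenform) (P : FreeAlgebra ℤ ℕ) :
    FreeAlgebra.lift ℤ (S31.heckeFam N) P g = FreeAlgebra.lift ℤ (eigC g) P • g := by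
  induction P using FreeAlgebra.induction with
  | grade0 r =>
    rw [AlgHom.commutes, AlgHom.commutes, Module.algebraMap_end_apply, eq_intCast,
      Int.cast_smul_eq_zsmul]
  | grade1 ℓ => rw [FreeAlgebra.lift_ι_apply, FreeAlgebra.lift_ι_apply, heckeFam_apply hg]
  | mul a b ha hb =>
    rw [map_mul, map_mul, Module.End.mul_apply, hb, map_smul, ha, smul_smul, mul_comm]
  | add a b ha hb => rw [map_add, map_add, LinearMap.add_apply, ha, hb, add_smul]

theorem ne_zero_of_eigenform {N : ℕ} {g : CuspForm (Gamma0 N) 2}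
    (hg : g.IsNormalizedEigenform) : g ≠ 0 := by
  rintro rfl
  have h := hg.qCoeff_one
  have h0 : qCoeff (⇑(0 : CuspForm (Gamma0 N) 2)) 1 = 0 := by
    have := Fermat.Agent.S49.qCoeff_smul' (0 : ℂ) (0 : CuspForm (Gamma0 N) 2) 1
    rwa [zero_smul, zero_mul] at this
  rw [h0] at h
  exact zero_ne_one h

theorem lift_eigC_eq_zero {N p : ℕ} [NeZero N] (𝒦 : S31.KummerSystem N p)
    {g : CuspForm (Gamma0 N) 2} (hg : g.IsNormalizedEigenform) (P : FreeAlgebra ℤ ℕ)
    (hP : FreeAlgebra.lift ℤ 𝒦.T P = 0) : FreeAlgebra.lift ℤ (eigC g) P = 0 := by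
  have h1 := lift_heckeFam_apply hg P
  rw [𝒦.link P hP, LinearMap.zero_apply] at h1
  exact (smul_eq_zero.1 h1.symm).resolve_right (ne_zero_of_eigenform hg)

/-- the substitution killing the generators at the bad indices. -/
noncomputable def sGood (N p : ℕ) : FreeAlgebra ℤ ℕ →ₐ[ℤ] FreeAlgebra ℤ ℕ :=
  FreeAlgebra.lift ℤ (fun ℓ => if Good N p ℓ then FreeAlgebra.ι ℤ ℓ else 0)

theorem lift_comp_sGood (N p : ℕ) {A : Type*} [Ring A] [Algebra ℤ A] (f : ℕ → A) :
    (FreeAlgebra.lift ℤ f).comp (sGood N p) =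
      FreeAlgebra.lift ℤ (fun ℓ => if Good N p ℓ then f ℓ else 0) := by
  apply FreeAlgebra.hom_ext
  funext ℓ
  simp only [Function.comp_apply, AlgHom.comp_apply, sGood, FreeAlgebra.lift_ι_apply]
  split_ifs
  · rw [FreeAlgebra.lift_ι_apply]
  · rw [map_zero]

theorem lift_sGood_apply (N p : ℕ) {A : Type*} [Ring A] [Algebra ℤ A] (f : ℕ → A)
    (P : FreeAlgebra ℤ ℕ) :
    FreeAlgebra.lift ℤ f (sGood N p P) =
      FreeAlgebra.lift ℤ (fun ℓ => if Good N p ℓ then f ℓ else 0) P := by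
  rw [← lift_comp_sGood, AlgHom.comp_apply]

section matrices

variable {N p : ℕ} [NeZero N] (𝒦 : S31.KummerSystem N p)

/-- the Hecke operators at the good primes, as matrices. -/
noncomputable def matT (ℓ : ℕ) :
    Matrix (Fin (Module.finrank ℤ 𝒦.H)) (Fin (Module.finrank ℤ 𝒦.H)) ℤ :=
  if Good N p ℓ then LinearMap.toMatrixAlgEquiv (Module.finBasis ℤ 𝒦.H) (𝒦.T ℓ) else 0

theorem matT_comm (hp : p.Prime) (ℓ ℓ' : ℕ) : matT 𝒦 ℓ * matT 𝒦 ℓ' = matT 𝒦 ℓ' * matT 𝒦 ℓ := by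
  unfold matT
  by_cases h : Good N p ℓ
  · by_cases h' : Good N p ℓ'
    · simp only [if_pos h, if_pos h']
      rw [← map_mul, ← map_mul, convert_T_comm 𝒦 hp ℓ ℓ' h h']
    · simp only [if_neg h', mul_zero, zero_mul]
  · simp only [if_neg h, mul_zero, zero_mul]

theorem lift_matT (P : FreeAlgebra ℤ ℕ) :
    FreeAlgebra.lift ℤ (matT 𝒦) P =
      LinearMap.toMatrixAlgEquiv (Module.finBasis ℤ 𝒦.H)
        (FreeAlgebra.lift ℤ 𝒦.T (sGood N p P)) := by
  have h1 : ((LinearMap.toMatrixAlgEquiv (Module.finBasis ℤ 𝒦.H)).toAlgHom.comp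
      (FreeAlgebra.lift ℤ (fun ℓ => if Good N p ℓ then 𝒦.T ℓ else 0))) =
        FreeAlgebra.lift ℤ (matT 𝒦) := by
    apply FreeAlgebra.hom_ext
    funext ℓ
    simp only [Function.comp_apply, AlgHom.comp_apply, FreeAlgebra.lift_ι_apply, matT]
    split_ifs
    · rfl
    · rw [map_zero]
  rw [← h1, lift_sGood_apply]
  rfl

/-- the eigenvalues at the good primes. -/
noncomputable def eigG (N p : ℕ) (g : CuspForm (Gamma0 N) 2) (ℓ : ℕ) : ℂ :=
  if Good N p ℓ then eigC g ℓ else 0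

theorem lift_eigG_eq_zero {g : CuspForm (Gamma0 N) 2} (hg : g.IsNormalizedEigenform)
    (P : FreeAlgebra ℤ ℕ) (hP : FreeAlgebra.lift ℤ (matT 𝒦) P = 0) :
    FreeAlgebra.lift ℤ (eigG N p g) P = 0 := by
  rw [lift_matT] at hP
  have h1 : FreeAlgebra.lift ℤ 𝒦.T (sGood N p P) = 0 :=
    (map_eq_zero_iff _ (LinearMap.toMatrixAlgEquiv (Module.finBasis ℤ 𝒦.H)).injective).mp hP
  have h2 := lift_eigC_eq_zero 𝒦 hg _ h1
  rw [lift_sGood_apply] at h2
  exact h2

include 𝒦 in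
theorem isIntegral_eigG {g : CuspForm (Gamma0 N) 2} (hg : g.IsNormalizedEigenform) (ℓ : ℕ) :
    IsIntegral ℤ (eigG N p g ℓ) := by
  refine ⟨(matT 𝒦 ℓ).charpoly, Matrix.charpoly_monic _, ?_⟩
  have h1 := lift_eigG_eq_zero 𝒦 hg
    (Polynomial.aeval (FreeAlgebra.ι ℤ ℓ) (matT 𝒦 ℓ).charpoly) (by
      rw [← Polynomial.aeval_algHom_apply, FreeAlgebra.lift_ι_apply, Matrix.aeval_self_charpoly])
  rw [← Polynomial.aeval_algHom_apply, FreeAlgebra.lift_ι_apply] at h1
  exact h1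

/-- the eigenvalues as algebraic integers. -/
noncomputable def eigZ {g : CuspForm (Gamma0 N) 2} (hg : g.IsNormalizedEigenform) (ℓ : ℕ) :
    integralClosure ℤ ℂ :=
  ⟨eigG N p g ℓ, isIntegral_eigG 𝒦 hg ℓ⟩

theorem coe_eigZ {g : CuspForm (Gamma0 N) 2} (hg : g.IsNormalizedEigenform) {ℓ : ℕ}
    (hℓ : ℓ.Prime) (hℓN : ¬ ℓ ∣ N * p) : (eigZ 𝒦 hg ℓ : ℂ) = qCoeff g ℓ := by
  show eigG N p g ℓ = _
  rw [eigG, if_pos ⟨hℓ, hℓN⟩, eigC, if_pos ⟨hℓ, fun h => hℓN (h.mul_right p)⟩]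

/-- the eigensystem of `g` modulo any prime of `ℤ̄` occurs in coordinates. -/
theorem exists_vector (hp : p.Prime) {g : CuspForm (Gamma0 N) 2} (hg : g.IsNormalizedEigenform)
    {K : Type} [Field K] (φ : integralClosure ℤ ℂ →+* K) :
    ∃ v : Fin (Module.finrank ℤ 𝒦.H) → K, v ≠ 0 ∧
      ∀ ℓ, ((matT 𝒦 ℓ).map (Int.castRingHom K)).mulVec v = φ (eigZ 𝒦 hg ℓ) • v := by
  have h : ∀ P : FreeAlgebra ℤ ℕ, FreeAlgebra.lift ℤ (matT 𝒦) P = 0 →
      FreeAlgebra.lift ℤ (fun ℓ => φ (eigZ 𝒦 hg ℓ)) P = 0 := by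
    intro P hP
    have h1 := lift_eigG_eq_zero 𝒦 hg P hP
    have h2 : (integralClosure ℤ ℂ).val.comp (FreeAlgebra.lift ℤ (eigZ 𝒦 hg)) =
        FreeAlgebra.lift ℤ (eigG N p g) := by
      apply FreeAlgebra.hom_ext
      funext ℓ
      simp [eigZ]
    have h3 : (φ.toIntAlgHom).comp (FreeAlgebra.lift ℤ (eigZ 𝒦 hg)) =
        FreeAlgebra.lift ℤ (fun ℓ => φ (eigZ 𝒦 hg ℓ)) := by
      apply FreeAlgebra.hom_ext
      funext ℓ
      simp
    have h4 : FreeAlgebra.lift ℤ (eigZ 𝒦 hg) P = 0 := by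
      apply Subtype.val_injective
      have := congrArg (fun F => F P) h2
      simp only [AlgHom.comp_apply] at this
      rw [h1] at this
      exact this
    rw [← h3, AlgHom.comp_apply, h4, map_zero]
  exact exists_eigenvector (matT 𝒦) (matT_comm 𝒦 hp) (fun ℓ => φ (eigZ 𝒦 hg ℓ)) h

/-- the eigensystem of `g` modulo any prime of `ℤ̄` above `p` occurs in the Kummer classes. -/
theorem exists_big_occurs [Fact p.Prime] {g : CuspForm (Gamma0 N) 2}
    (hg : g.IsNormalizedEigenform) {K : Type} [Field K] [Algebra (ZMod p) K]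
    (φ : integralClosure ℤ ℂ →+* K) :
    ∃ B : Fermat.Agent.GES.ESBig N p, B.Occurs (fun ℓ => φ (eigZ 𝒦 hg ℓ)) := by
  have hp : p.Prime := Fact.out
  letI : Module (ZMod p) (𝒦.W 1) := AddCommGroup.zmodModule fun w => by simpa using 𝒦.tors 1 w
  obtain ⟨v, hv0, hv⟩ := exists_vector 𝒦 hp hg φ
  obtain ⟨w, hw0, hw⟩ := exists_eigenvector_of_kappa (p := p) (Module.finBasis ℤ 𝒦.H) (𝒦.κ 1)
    (fun h hh => by simpa using 𝒦.κ_ker 1 h hh) v hv0
  refine ⟨bigOf N p (𝒦.act 1) (𝒦.smooth 1) (𝒦.TW 1) (𝒦.comm 1) (𝒦.es 1) (𝒦.unram 1), w, hw0, ?_⟩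
  intro ℓ hℓ hℓN
  have hgood : Good N p ℓ := ⟨hℓ, hℓN⟩
  have h1 := hv ℓ
  rw [matT, if_pos hgood] at h1
  have h2 := hw (𝒦.T ℓ) (linOf (𝒦.TW 1 ℓ)) _ (fun h => 𝒦.κ_T 1 ℓ hℓ hℓN h) h1
  have h3 : (bigOf N p (𝒦.act 1) (𝒦.smooth 1) (𝒦.TW 1) (𝒦.comm 1) (𝒦.es 1) (𝒦.unram 1)).T ℓ =
      linOf (𝒦.TW 1 ℓ) := bigT_of_good _ hgood
  rw [h3]
  exact h2

end matrices

end Fermat.Agent.S29
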