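import Fermat.Agent.S29.FDDefs
import Fermat.Agent.S14.Density.PrimeSumLower

/-!
# S29, FD1-Asymp
-/

set_option autoImplicit false

namespace Fermat.Agent.S29

open NumberField IsDedekindDomain Filter Topology Fermat.Agent.S14

/-- FD1a: `∑_{deg v = 1} N v^{-s} = log (1/(s-1)) + O(1)`.
(`le_primeSum_degree_one`, `primeSum_univ_le`, `primeSum_mono`.) -/
theorem degOne_asymp (M : Type*) [Field M] [NumberField M] :
    ∃ C : ℝ, ∀ᶠ s in 𝓝[>] (1 : ℝ), |primeSum (degOne M) s - Real.log (1 / (s - 1))| ≤ C := by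
  obtain ⟨C₁, h₁⟩ := le_primeSum_degree_one M
  obtain ⟨C₂, h₂⟩ := primeSum_univ_le M
  refine ⟨max C₁ C₂, ?_⟩
  filter_upwards [h₁, h₂, self_mem_nhdsWithin] with s e₁ e₂ hs
  have hs' : 1 < s := hs
  have e₃ : primeSum (degOne M) s ≤ primeSum (Set.univ : Set (HeightOneSpectrum (𝓞 M))) s :=
    primeSum_mono (Set.subset_univ _) (summable_primeNorm_rpow M hs')
  have e₁' : Real.log (1 / (s - 1)) ≤ primeSum (degOne M) s + C₁ := e₁
  rw [abs_le]
  constructor
  · have := le_max_left C₁ C₂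
    linarith
  · have := le_max_right C₁ C₂
    linarith

namespace FDAsymp

/-- the fibre of the norm map. -/
noncomputable def fibreEquiv (M : Type*) [Field M] [NumberField M] (ℓ : Nat.Primes) :
    {v : degOne M // (⟨Ideal.absNorm (v : HeightOneSpectrum (𝓞 M)).asIdeal, v.2⟩ : Nat.Primes) = ℓ}
      ≃ {v : HeightOneSpectrum (𝓞 M) // Ideal.absNorm v.asIdeal = (ℓ : ℕ)} where
  toFun v := ⟨v.1.1, congrArg Subtype.val v.2⟩
  invFun v := ⟨⟨v.1, by
    show (Ideal.absNorm v.1.asIdeal).Prime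
    rw [v.2]; exact ℓ.2⟩, Subtype.ext v.2⟩
  left_inv _ := rfl
  right_inv _ := rfl

end FDAsymp

open FDAsymp in
/-- FD1b: regrouping according to the norm. -/
theorem hasSum_nDeg (M : Type*) [Field M] [NumberField M] {s : ℝ} (hs : 1 < s) :
    HasSum (fun ℓ : Nat.Primes => (nDeg M ℓ : ℝ) * ((ℓ : ℕ) : ℝ) ^ (-s)) (primeSum (degOne M) s) := by
  classical
  set f : degOne M → ℝ :=
    fun v => (Ideal.absNorm (v : HeightOneSpectrum (𝓞 M)).asIdeal : ℝ) ^ (-s) with hf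
  have hfs : Summable f := (summable_primeNorm_rpow M hs).subtype _
  have hsum : HasSum f (primeSum (degOne M) s) := hfs.hasSum
  let φ : degOne M → Nat.Primes :=
    fun v => ⟨Ideal.absNorm (v : HeightOneSpectrum (𝓞 M)).asIdeal, v.2⟩
  have h2 : HasSum (f ∘ (Equiv.sigmaFiberEquiv φ)) (primeSum (degOne M) s) :=
    (Equiv.hasSum_iff _).2 hsum
  refine h2.sigma (fun ℓ => ?_)
  have hfin0 : Finite {v : HeightOneSpectrum (𝓞 M) // Ideal.absNorm v.asIdeal = (ℓ : ℕ)} :=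
    (finite_primes_of_absNorm_eq (K := M) (ℓ : ℕ)).to_subtype
  have hfin : Finite {v : degOne M // φ v = ℓ} := Finite.of_equiv _ (fibreEquiv M ℓ).symm
  have := Fintype.ofFinite {v : degOne M // φ v = ℓ}
  have hconst : ∀ c : {v : degOne M // φ v = ℓ},
      (f ∘ (Equiv.sigmaFiberEquiv φ)) ⟨ℓ, c⟩ = ((ℓ : ℕ) : ℝ) ^ (-s) := by
    intro c
    have h3 : Ideal.absNorm ((c : degOne M) : HeightOneSpectrum (𝓞 M)).asIdeal = (ℓ : ℕ) :=
      congrArg Subtype.val c.2
    simp only [Function.comp, Equiv.sigmaFiberEquiv_apply, hf, h3]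
  have hcard : (nDeg M ℓ : ℝ) = (Fintype.card {v : degOne M // φ v = ℓ} : ℝ) := by
    unfold nDeg
    rw [← Nat.card_eq_fintype_card]
    exact congrArg (Nat.cast : ℕ → ℝ) (Nat.card_congr (fibreEquiv M ℓ)).symm
  have h4 := hasSum_fintype (fun c : {v : degOne M // φ v = ℓ} =>
    (f ∘ (Equiv.sigmaFiberEquiv φ)) ⟨ℓ, c⟩)
  rw [Finset.sum_congr rfl (fun c _ => hconst c), Finset.sum_const, nsmul_eq_mul,
    Finset.card_univ, ← hcard] at h4
  exact h4

end Fermat.Agent.S29
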