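import Fermat.Agent.S29.Interface
import Fermat.Agent.S14.Density.Defs

/-!
# S29, chapter FD (Frobenius density, lite): definitions
-/

set_option autoImplicit false

namespace Fermat.Agent.S29

open NumberField IsDedekindDomain

/-- the primes of degree one. -/
def degOne (M : Type*) [Field M] [NumberField M] : Set (HeightOneSpectrum (𝓞 M)) :=
  {v | (Ideal.absNorm v.asIdeal).Prime}

/-- the number of primes of norm `ℓ`. -/
noncomputable def nDeg (M : Type*) [Field M] [NumberField M] (ℓ : ℕ) : ℕ :=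
  Nat.card {v : HeightOneSpectrum (𝓞 M) // Ideal.absNorm v.asIdeal = ℓ}

/-- the number of embeddings `M → ℚ̄` fixed by `σ`. -/
noncomputable def nFix (M : Type*) [Field M] [Algebra ℚ M] (σ : GQ) : ℕ :=
  Nat.card {ι : M →ₐ[ℚ] AlgebraicClosure ℚ // (σ : AlgebraicClosure ℚ →ₐ[ℚ] AlgebraicClosure ℚ).comp ι = ι}

end Fermat.Agent.S29
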