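import Fermat.Agent.S29.Bridge
import Fermat.Agent.S31.Exists

/-!
# S29 / S42: the geometric input in the form used by the extraction of the representation

It is deduced from the Kummer system `S31.exists_kummerSystem` (at level `n = 1`).
-/

set_option autoImplicit false

namespace Fermat.Agent.S29

open CuspForm CongruenceSubgroup ModularFormClass

/-- the eigensystem of a normalized eigenform is integral and occurs, modulo every prime of `ℤ̄`
above `p`, in a finite `𝔽_p[G_ℚ]`-module satisfying the Eichler-Shimura relations. -/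
theorem exists_esDatum_occurs {N p : ℕ} [NeZero N] [Fact p.Prime]
    {g : CuspForm (Gamma0 N) 2} (hg : g.IsNormalizedEigenform) {K : Type} [Field K]
    [Algebra (ZMod p) K] (φ : integralClosure ℤ ℂ →+* K) :
    ∃ (D : ESDatum N p) (a : ℕ → integralClosure ℤ ℂ),
      (∀ ℓ : ℕ, ℓ.Prime → ¬ ℓ ∣ N * p → (a ℓ : ℂ) = qCoeff g ℓ) ∧
        D.Occurs (fun ℓ => φ (a ℓ)) := by
  obtain ⟨𝒦⟩ := Fermat.Agent.S31.exists_kummerSystem N p Fact.out
  obtain ⟨B, hB⟩ := exists_big_occurs 𝒦 hg φ
  obtain ⟨D, hD⟩ := B.exists_esDatum _ hB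
  exact ⟨D, eigZ 𝒦 hg, fun ℓ hℓ hℓN => coe_eigZ 𝒦 hg hℓ hℓN, hD⟩

end Fermat.Agent.S29
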