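import Mathlib
import Fermat.Prelude.Def_GaloisRep_Residual

/-!
# S29 / S42: the interface between the three chapters

* chapter ES (Eichler-Shimura relation and unramifiedness on `V = J₀(N)[p]`) has to construct an
  `ESDatum N p`;
* chapter NV (non vanishing) has to prove `D.Occurs c` for the eigensystem `c ℓ = φ (a_ℓ)`;
* chapter RHO (this directory) extracts the two dimensional representation.
-/

set_option autoImplicit false

open scoped TensorProduct

namespace Fermat.Agent.S29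

/-- the absolute Galois group of `ℚ`. -/
abbrev GQ : Type := AlgebraicClosure ℚ ≃ₐ[ℚ] AlgebraicClosure ℚ

/-- A finite `𝔽_p[G_ℚ]`-module with endomorphisms `T ℓ` commuting with Galois, satisfying the
Eichler-Shimura relation at all Frobenius lifts and unramified outside `N p`.
(`T ℓ` is only relevant for primes `ℓ ∤ N p`.) -/
structure ESDatum (N p : ℕ) : Type 1 where
  V : Type
  [instAddCommGroup : AddCommGroup V]
  [instModule : Module (ZMod p) V]
  [instFinite : Module.Finite (ZMod p) V]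
  ρ : GQ →* Module.End (ZMod p) V
  level : GaloisFactorsThroughFiniteLevel ρ
  T : ℕ → Module.End (ZMod p) V
  comm : ∀ (ℓ : ℕ) (σ : GQ), T ℓ * ρ σ = ρ σ * T ℓ
  es : ∀ ℓ : ℕ, ℓ.Prime → ¬ ℓ ∣ N * p →
    ∀ A : ValuationSubring (AlgebraicClosure ℚ), A.LiesOverPrime ℓ →
      ∀ σ : GQ, A.IsFrobeniusAt σ ℓ → ρ σ * ρ σ - T ℓ * ρ σ + (ℓ : ZMod p) • 1 = 0
  unram : ∀ ℓ : ℕ, ℓ.Prime → ¬ ℓ ∣ N * p →
    ∀ A : ValuationSubring (AlgebraicClosure ℚ), A.LiesOverPrime ℓ →
      ∀ σ ∈ A.inertiaSubgroupIn ℚ, ρ σ = 1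

attribute [instance] ESDatum.instAddCommGroup ESDatum.instModule ESDatum.instFinite

/-- the system of eigenvalues `c` occurs in `K ⊗ V`. -/
def ESDatum.Occurs {N p : ℕ} (D : ESDatum N p) {K : Type} [Field K] [Algebra (ZMod p) K]
    (c : ℕ → K) : Prop :=
  ∃ v : K ⊗[ZMod p] D.V, v ≠ 0 ∧
    ∀ ℓ : ℕ, ℓ.Prime → ¬ ℓ ∣ N * p → (D.T ℓ).baseChange K v = c ℓ • v

end Fermat.Agent.S29
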