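import Mathlib

/-!
# S29, RHO1: irreducible representations all of whose elements satisfy `X² - a X + χ(g)`
-/

set_option autoImplicit false

open Polynomial

namespace Fermat.Agent.S29

namespace Quad

variable {K : Type} [Field K] {W : Type} [AddCommGroup W] [Module K W]

theorem mul_conj {x : Module.End K W} {a c : K} (h : x * x - a • x + c • 1 = 0) :
    x * (a • 1 - x) = c • 1 := by
  have h1 : x * (a • 1 - x) = -(x * x - a • x + c • 1) + c • 1 := by
    rw [mul_sub, mul_smul_comm, mul_one]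
    abel
  rw [h1, h]
  simp

theorem anticomm {x y : Module.End K W} {a b e c d : K} (hxu : IsUnit x) (hyu : IsUnit y)
    (hx : x * x - a • x + c • 1 = 0) (hy : y * y - b • y + d • 1 = 0)
    (hxy : (x * y) * (x * y) - e • (x * y) + (c * d) • 1 = 0) :
    x * y + y * x = b • x + a • y + (e - a * b) • 1 := by
  have h1 := mul_conj hxy
  have h2 : (x * y) * ((b • 1 - y) * (a • 1 - x)) = (c * d) • 1 := by
    calc (x * y) * ((b • 1 - y) * (a • 1 - x)) = x * (y * (b • 1 - y)) * (a • 1 - x) := by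
          simp only [mul_assoc]
      _ = d • (x * (a • 1 - x)) := by
          rw [mul_conj hy, mul_smul_comm, mul_one, smul_mul_assoc]
      _ = (c * d) • 1 := by rw [mul_conj hx, smul_smul, mul_comm]
  have h3 : e • 1 - x * y = (b • 1 - y) * (a • 1 - x) :=
    (hxu.mul hyu).mul_left_cancel (h1.trans h2.symm)
  have h4 : (b • (1 : Module.End K W) - y) * (a • 1 - x) = (a * b) • 1 - b • x - a • y + y * x := by
    rw [sub_mul, mul_sub, mul_sub, smul_mul_assoc, smul_mul_assoc, one_mul, one_mul,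
      mul_smul_comm, mul_one, smul_smul, mul_comm b a]
    abel
  rw [h4] at h3
  have h5 : x * y + y * x = e • 1 - ((a * b) • 1 - b • x - a • y) := by
    rw [← sub_eq_zero] at h3 ⊢
    rw [← neg_eq_zero, ← h3]
    abel
  rw [h5, sub_smul]
  abel

variable {G : Type*} [Group G] (ρ : G →* Module.End K W) (χ : G →* Kˣ)

theorem isUnit_rho (g : G) : IsUnit (ρ g) := (Group.isUnit g).map ρ

theorem key (hq : ∀ g, ∃ a : K, ρ g * ρ g - a • ρ g + (χ g : K) • 1 = 0) (g h : G) {a α : K}
    (ha : ρ g * ρ g - a • ρ g + (χ g : K) • 1 = 0) {w : W} (hw : ρ g w = α • w) :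
    ∃ c : K, ρ g (ρ h w) - (a - α) • ρ h w = c • w := by
  obtain ⟨b, hb⟩ := hq h
  obtain ⟨e, he⟩ := hq (g * h)
  rw [map_mul, map_mul, Units.val_mul] at he
  have h1 := anticomm (isUnit_rho ρ g) (isUnit_rho ρ h) ha hb he
  have h2 := congrArg (fun f : Module.End K W => f w) h1
  simp only [LinearMap.add_apply, Module.End.mul_apply, LinearMap.smul_apply, hw, map_smul,
    Module.End.one_apply] at h2
  refine ⟨b * α + (e - a * b), ?_⟩
  have h3 : ρ g (ρ h w) = b • α • w + a • ρ h w + (e - a * b) • w - α • ρ h w := by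
    rw [← h2]
    abel
  rw [h3]
  module

theorem span_orbit_eq_top
    (hirr : ∀ U : Submodule K W, (∀ g, ∀ x ∈ U, ρ g x ∈ U) → U = ⊥ ∨ U = ⊤) {w : W} (hw : w ≠ 0) :
    Submodule.span K (Set.range fun h : G => ρ h w) = ⊤ := by
  have hinv : ∀ g, ∀ x ∈ Submodule.span K (Set.range fun h : G => ρ h w),
      ρ g x ∈ Submodule.span K (Set.range fun h : G => ρ h w) := by
    intro g x hx
    induction hx using Submodule.span_induction with
    | mem x hx =>
      obtain ⟨h, rfl⟩ := hx
      exact Submodule.subset_span ⟨g * h, by simp⟩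
    | zero => simp
    | add x y _ _ hx hy => rw [map_add]; exact Submodule.add_mem _ hx hy
    | smul c x _ hx => rw [map_smul]; exact Submodule.smul_mem _ _ hx
  rcases hirr _ hinv with h | h
  · exfalso
    apply hw
    have : w ∈ Submodule.span K (Set.range fun h : G => ρ h w) :=
      Submodule.subset_span ⟨1, by simp⟩
    rw [h] at this
    simpa using this
  · exact h

theorem range_le
    (hirr : ∀ U : Submodule K W, (∀ g, ∀ x ∈ U, ρ g x ∈ U) → U = ⊥ ∨ U = ⊤)
    (hq : ∀ g, ∃ a : K, ρ g * ρ g - a • ρ g + (χ g : K) • 1 = 0) (g : G) {a α : K}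
    (ha : ρ g * ρ g - a • ρ g + (χ g : K) • 1 = 0) {w : W} (hw : ρ g w = α • w) (hw0 : w ≠ 0) :
    LinearMap.range (ρ g - (a - α) • 1) ≤ K ∙ w := by
  rintro _ ⟨z, rfl⟩
  have hz : z ∈ Submodule.span K (Set.range fun h : G => ρ h w) := by
    rw [span_orbit_eq_top ρ hirr hw0]
    trivial
  induction hz using Submodule.span_induction with
  | mem x hx =>
    obtain ⟨h, rfl⟩ := hx
    obtain ⟨c, hc⟩ := key ρ χ hq g h ha hw
    rw [Submodule.mem_span_singleton]
    exact ⟨c, by simp [← hc]⟩
  | zero => simp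
  | add x y _ _ hx hy => rw [map_add]; exact Submodule.add_mem _ hx hy
  | smul c x _ hx => rw [map_smul]; exact Submodule.smul_mem _ _ hx

theorem exists_eigen {x : Module.End K W} {α β : K} (h : (x - α • 1) * (x - β • 1) = 0)
    (hx : ¬ ∃ c : K, x = c • 1) : ∃ w : W, w ≠ 0 ∧ x w = α • w := by
  by_contra hcon
  push Not at hcon
  apply hx
  refine ⟨β, ?_⟩
  ext z
  have h1 := congrArg (fun f : Module.End K W => f z) h
  simp only [Module.End.mul_apply, LinearMap.zero_apply] at h1
  set u := (x - β • 1) z with hu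
  have h2 : x u = α • u := by
    simpa [sub_eq_zero] using h1
  have h3 : u = 0 := by
    by_contra h0
    exact hcon u h0 h2
  rw [hu] at h3
  simpa [sub_eq_zero] using h3

theorem finrank_le_two [IsAlgClosed K] [FiniteDimensional K W]
    (hirr : ∀ U : Submodule K W, (∀ g, ∀ x ∈ U, ρ g x ∈ U) → U = ⊥ ∨ U = ⊤)
    (hq : ∀ g, ∃ a : K, ρ g * ρ g - a • ρ g + (χ g : K) • 1 = 0) (g : G)
    (hg : ¬ ∃ c : K, ρ g = c • 1) : Module.finrank K W ≤ 2 := by
  obtain ⟨a, ha⟩ := hq g
  obtain ⟨α, hα⟩ := IsAlgClosed.exists_root (X ^ 2 - C a * X + C (χ g : K)) (by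
    have : (X ^ 2 - C a * X + C (χ g : K)).degree = 2 := by compute_degree!
    rw [this]
    norm_num)
  simp only [IsRoot.def, eval_add, eval_sub, eval_pow, eval_X, eval_mul, eval_C] at hα
  set β := a - α with hβ
  set x := ρ g with hx
  have hprod : ∀ α' β' : K, α' + β' = a → α' * β' = (χ g : K) →
      (x - α' • 1) * (x - β' • 1) = 0 := by
    intro α' β' h1 h2
    rw [← ha, ← h1, ← h2]
    simp only [sub_mul, mul_sub, smul_mul_assoc, mul_smul_comm, one_mul, mul_one]
    module
  have hαβ : α * β = (χ g : K) := by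
    rw [hβ]
    linear_combination -hα
  obtain ⟨w, hw0, hw⟩ := exists_eigen (hprod α β (by rw [hβ]; ring) hαβ) hg
  obtain ⟨w', hw0', hw'⟩ := exists_eigen (hprod β α (by rw [hβ]; ring) (by rw [mul_comm]; exact hαβ)) hg
  have hr1 : LinearMap.range (x - β • 1) ≤ K ∙ w := range_le ρ χ hirr hq g ha hw hw0
  have hr2 : LinearMap.range (x - α • 1) ≤ K ∙ w' := by
    have := range_le ρ χ hirr hq g ha hw' hw0'
    rwa [show a - β = α by rw [hβ]; ring] at this
  -- a nonzero vector in the range of `x - β`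
  obtain ⟨z, hz⟩ : ∃ z, (x - β • 1) z ≠ 0 := by
    by_contra hcon
    push Not at hcon
    apply hg
    refine ⟨β, ?_⟩
    ext z
    simpa [sub_eq_zero] using hcon z
  set u := (x - β • 1) z with hu
  have hker : LinearMap.ker (x - α • 1) ≤ K ∙ u := by
    intro v hv
    by_cases hv0 : v = 0
    · rw [hv0]; exact Submodule.zero_mem _
    have hv' : x v = α • v := by
      simpa [sub_eq_zero] using hv
    have h1 : LinearMap.range (x - β • 1) ≤ K ∙ v := range_le ρ χ hirr hq g ha hv' hv0
    have h2 : u ∈ K ∙ v := h1 ⟨z, rfl⟩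
    obtain ⟨c, hc⟩ := Submodule.mem_span_singleton.1 h2
    have hc0 : c ≠ 0 := by
      rintro rfl
      apply hz
      rw [← hc, zero_smul]
    rw [Submodule.mem_span_singleton]
    exact ⟨c⁻¹, by rw [← hc, smul_smul, inv_mul_cancel₀ hc0, one_smul]⟩
  have h1 := LinearMap.finrank_range_add_finrank_ker (x - α • 1)
  have h2 : Module.finrank K (LinearMap.range (x - α • 1)) ≤ 1 :=
    (Submodule.finrank_mono hr2).trans (finrank_span_singleton hw0').le
  have h3 : Module.finrank K (LinearMap.ker (x - α • 1)) ≤ 1 :=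
    (Submodule.finrank_mono hker).trans (finrank_span_singleton hz).le
  omega

theorem smul_one_injective [Nontrivial W] {c c' : K}
    (h : c • (1 : Module.End K W) = c' • 1) : c = c' := by
  obtain ⟨w, hw⟩ := exists_ne (0 : W)
  have h1 := congrArg (fun f : Module.End K W => f w) h
  simp only [LinearMap.smul_apply, Module.End.one_apply] at h1
  exact smul_left_injective K hw h1

theorem charpoly_toLin' (M : Matrix (Fin 2) (Fin 2) K) :
    LinearMap.charpoly (Matrix.toLin' M) = X ^ 2 - C M.trace * X + C M.det := by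
  rw [← LinearMap.charpoly_toMatrix _ (Pi.basisFun K (Fin 2)), LinearMap.toMatrix_eq_toMatrix',
    LinearMap.toMatrix'_toLin', Matrix.charpoly_fin_two]

/-- the case where all `ρ g` are scalars. -/
theorem scalar_case [Nontrivial W] (hs : ∀ g, ∃ c : K, ρ g = c • 1) :
    ∃ ρ' : G →* Module.End K (Fin 2 → K),
      (∀ g, ρ g = 1 → χ g = 1 → ρ' g = 1) ∧
      ∀ (g : G) (a : K), ρ g * ρ g - a • ρ g + (χ g : K) • 1 = 0 →
        LinearMap.charpoly (ρ' g) = X ^ 2 - C a * X + C (χ g : K) := by
  choose ψ hψ using hs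
  have hψ1 : ψ 1 = 1 := by
    apply smul_one_injective (W := W)
    rw [← hψ, map_one, one_smul]
  have hψmul : ∀ g h, ψ (g * h) = ψ g * ψ h := by
    intro g h
    apply smul_one_injective (W := W)
    rw [← hψ, map_mul, hψ g, hψ h, smul_mul_smul_comm, one_mul]
  have hψ0 : ∀ g, ψ g ≠ 0 := by
    intro g h0
    have := hψmul g g⁻¹
    rw [mul_inv_cancel, hψ1, h0, zero_mul] at this
    exact one_ne_zero this
  let d : G →* (Fin 2 → K) :=
    { toFun := fun g => ![ψ g, (χ g : K) * (ψ g)⁻¹]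
      map_one' := by
        ext i
        fin_cases i <;> simp [hψ1]
      map_mul' := by
        intro g h
        ext i
        fin_cases i
        · simp [hψmul]
        · simp only [hψmul, map_mul, Units.val_mul, mul_inv]
          simp
          ring }
  let ρ' : G →* Module.End K (Fin 2 → K) :=
    ((Matrix.toLinAlgEquiv' : Matrix (Fin 2) (Fin 2) K ≃ₐ[K] _).toAlgHom.toRingHom.toMonoidHom.comp
      (Matrix.diagonalRingHom (Fin 2) K).toMonoidHom).comp d
  have hρ' : ∀ g, ρ' g = Matrix.toLin' (Matrix.diagonal ![ψ g, (χ g : K) * (ψ g)⁻¹]) := fun g => rfl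
  refine ⟨ρ', ?_, ?_⟩
  · intro g h1 h2
    have h3 : ψ g = 1 := by
      apply smul_one_injective (W := W)
      rw [← hψ, h1, one_smul]
    rw [hρ', h3, h2]
    have : Matrix.diagonal ![(1 : K), ((1 : Kˣ) : K) * (1 : K)⁻¹] = 1 := by
      ext i j
      fin_cases i <;> fin_cases j <;> simp
    rw [this, Matrix.toLin'_one]
    rfl
  · intro g a ha
    rw [hρ', charpoly_toLin']
    rw [hψ g] at ha
    have h1 : (ψ g * ψ g - a * ψ g + (χ g : K)) • (1 : Module.End K W) = (0 : K) • 1 := by
      rw [zero_smul, ← ha, smul_mul_smul_comm, one_mul, smul_smul, add_smul, sub_smul]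
    have h2 := smul_one_injective h1
    have h3 : a = ψ g + (χ g : K) * (ψ g)⁻¹ := by
      field_simp [hψ0 g]
      linear_combination -h2
    have h4 : (Matrix.diagonal ![ψ g, (χ g : K) * (ψ g)⁻¹]).trace = a := by
      rw [h3]
      simp
    have h5 : (Matrix.diagonal ![ψ g, (χ g : K) * (ψ g)⁻¹]).det = (χ g : K) := by
      simp
      field_simp [hψ0 g]
    rw [h4, h5]

theorem scalar_of_finrank_one (h : Module.finrank K W = 1) (x : Module.End K W) :
    ∃ c : K, x = c • 1 := by
  obtain ⟨v, _, hv⟩ := finrank_eq_one_iff'.1 h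
  obtain ⟨c, hc⟩ := hv (x v)
  refine ⟨c, ?_⟩
  ext w
  obtain ⟨d, rfl⟩ := hv w
  rw [map_smul, ← hc, LinearMap.smul_apply, Module.End.one_apply, smul_comm]

theorem cayley_two [FiniteDimensional K W] (h : Module.finrank K W = 2) (x : Module.End K W) :
    ∃ t : K, LinearMap.charpoly x = X ^ 2 - C t * X + C (LinearMap.det x) ∧
      x * x - t • x + (LinearMap.det x) • 1 = 0 := by
  let b := Module.finBasisOfFinrankEq K W h
  have h1 : LinearMap.charpoly x
      = X ^ 2 - C (LinearMap.toMatrix b b x).trace * X + C (LinearMap.det x) := by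
    rw [← LinearMap.charpoly_toMatrix x b, Matrix.charpoly_fin_two, LinearMap.det_toMatrix]
  refine ⟨_, h1, ?_⟩
  have h2 := LinearMap.aeval_self_charpoly x
  rw [h1] at h2
  simp only [map_add, map_sub, map_mul, map_pow, aeval_X, aeval_C] at h2
  rw [sq, Algebra.algebraMap_eq_smul_one, Algebra.algebraMap_eq_smul_one, smul_mul_assoc,
    one_mul] at h2
  exact h2

theorem eq_of_two_quad {x : Module.End K W} [Nontrivial W] (hx : ¬ ∃ c : K, x = c • 1)
    {a c t d : K} (h1 : x * x - a • x + c • 1 = 0) (h2 : x * x - t • x + d • 1 = 0) : c = d := by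
  have h3 : (t - a) • x = (d - c) • 1 := by
    have : (t - a) • x - (d - c) • 1 = (x * x - a • x + c • 1) - (x * x - t • x + d • 1) := by
      module
    rw [← sub_eq_zero, this, h1, h2, sub_zero]
  by_cases hta : t = a
  · rw [hta, sub_self, zero_smul] at h3
    have h4 : (d - c) • (1 : Module.End K W) = (0 : K) • 1 := by rw [← h3, zero_smul]
    have := smul_one_injective h4
    exact (sub_eq_zero.1 this).symm
  · exfalso
    apply hx
    refine ⟨(t - a)⁻¹ * (d - c), ?_⟩
    rw [mul_smul, ← h3, smul_smul, inv_mul_cancel₀ (sub_ne_zero.2 hta), one_smul]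

end Quad

open Quad in
/-- RHO1 -/
theorem quad_rep {K : Type} [Field K] [IsAlgClosed K] {G : Type*} [Group G] {W : Type}
    [AddCommGroup W] [Module K W] [FiniteDimensional K W] [Nontrivial W]
    (ρ : G →* Module.End K W)
    (hirr : ∀ U : Submodule K W, (∀ g, ∀ x ∈ U, ρ g x ∈ U) → U = ⊥ ∨ U = ⊤)
    (χ : G →* Kˣ)
    (hq : ∀ g, ∃ a : K, ρ g * ρ g - a • ρ g + (χ g : K) • 1 = 0) :
    ∃ ρ' : G →* Module.End K (Fin 2 → K),
      (∀ g, ρ g = 1 → χ g = 1 → ρ' g = 1) ∧
      ∀ (g : G) (a : K), ρ g * ρ g - a • ρ g + (χ g : K) • 1 = 0 →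
        LinearMap.charpoly (ρ' g) = X ^ 2 - C a * X + C (χ g : K) := by
  by_cases hs : ∀ g, ∃ c : K, ρ g = c • 1
  · exact scalar_case ρ χ hs
  push Not at hs
  obtain ⟨g₀, hg₀⟩ := hs
  have hg₀' : ¬ ∃ c : K, ρ g₀ = c • 1 := by
    rintro ⟨c, hc⟩
    exact hg₀ c hc
  have h2 : Module.finrank K W = 2 := by
    have h1 := finrank_le_two ρ χ hirr hq g₀ hg₀'
    have h3 : 0 < Module.finrank K W := Module.finrank_pos
    have h4 : Module.finrank K W ≠ 1 := fun h => hg₀' (scalar_of_finrank_one h _)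
    omega
  -- `det = χ`
  have hdet_ns : ∀ g, (¬ ∃ c : K, ρ g = c • 1) → LinearMap.det (ρ g) = (χ g : K) := by
    intro g hg
    obtain ⟨a, ha⟩ := hq g
    obtain ⟨t, _, ht⟩ := cayley_two h2 (ρ g)
    exact (eq_of_two_quad hg ha ht).symm
  have hdet : ∀ g, LinearMap.det (ρ g) = (χ g : K) := by
    intro g
    by_cases hg : ∃ c : K, ρ g = c • 1
    · obtain ⟨c, hc⟩ := hg
      have hc0 : c ≠ 0 := by
        rintro rfl
        have := isUnit_rho ρ g
        rw [hc, zero_smul] at this
        exact not_isUnit_zero this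
      have h3 : ¬ ∃ c' : K, ρ (g * g₀) = c' • 1 := by
        rintro ⟨c', hc'⟩
        apply hg₀'
        refine ⟨c⁻¹ * c', ?_⟩
        rw [map_mul, hc, smul_mul_assoc, one_mul] at hc'
        rw [mul_smul, ← hc', smul_smul, inv_mul_cancel₀ hc0, one_smul]
      have h4 := hdet_ns _ h3
      rw [map_mul, map_mul, map_mul, Units.val_mul, hdet_ns g₀ hg₀'] at h4
      exact mul_right_cancel₀ (Units.ne_zero _) h4
    · exact hdet_ns g hg
  let e : W ≃ₗ[K] (Fin 2 → K) := (Module.finBasisOfFinrankEq K W h2).equivFun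
  refine ⟨(e.conjRingEquiv : Module.End K W →* Module.End K (Fin 2 → K)).comp ρ, ?_, ?_⟩
  · intro g h1 _
    simp [h1]
  · intro g a ha
    have h3 : ((e.conjRingEquiv : Module.End K W →* Module.End K (Fin 2 → K)).comp ρ) g
        = e.conj (ρ g) := rfl
    rw [h3, LinearEquiv.charpoly_conj]
    obtain ⟨t, ht1, ht2⟩ := cayley_two h2 (ρ g)
    rw [ht1, hdet]
    rw [hdet] at ht2
    have h4 : (t - a) • ρ g = 0 := by
      have : (t - a) • ρ g = (ρ g * ρ g - a • ρ g + (χ g : K) • 1)
          - (ρ g * ρ g - t • ρ g + (χ g : K) • 1) := by module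
      rw [this, ha, ht2, sub_zero]
    have h5 : t = a := by
      by_contra hne
      have h6 : ρ g = 0 := by
        have := congrArg (fun y => (t - a)⁻¹ • y) h4
        simpa [smul_smul, inv_mul_cancel₀ (sub_ne_zero.2 hne)] using this
      have := isUnit_rho ρ g
      rw [h6] at this
      exact not_isUnit_zero this
    rw [h5]

end Fermat.Agent.S29
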